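/-
DS/G (generic twins), chapter RED, helper77.  Twin of `RED/ModelTargets4`.

The concrete MODEL targets of Program H with the level-`M` function field
`Interface4.FK M K = laurentBaseChange K (modularFunctionFieldFull M)` replaced by
`FK F₀ K = laurentBaseChange K F₀` for an ARBITRARY rational field
`F₀ : IntermediateField ℚ (LaurentSeries ℚ)` (e.g. the function field of `X₁(M)`).

The parameter is still the Hauptmodul `t = tq K n e` of `X₀(n)`, `(n, e) = (4, 8)` or `(9, 3)`; the
generic section of the original file (`tq_mem_gaussRing`, `gaussRed_tq`,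
`transcendental_gaussRed_tq`), `cuspSet` and `JTarget` (which never mentioned the level) are used
as they are.  `*_iff` lemmas: the old targets are the instance `F₀ = modularFunctionFieldFull M`.
-/
import Mathlib
import Fermat.Agent.RED.ModelTargets4

set_option autoImplicit false

open HahnSeries ModularCurve IntermediateField
open scoped MatrixGroups

noncomputable section

namespace Fermat.Agent.DS.G.RED.ModelTargets4

open Fermat.Agent.RED.Interface4 (Qbar AK)
open Fermat.Agent.RED.PUR.GaussGen8 Fermat.Agent.RED.ModelIface4 Fermat.Agent.RED.BASE.EtaQuot12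
  Fermat.Agent.X0
open Fermat.Agent.RED.ModelTargets4 (cuspSet)

variable (F₀ : IntermediateField ℚ (LaurentSeries ℚ))

/-- The function field `K·F₀ ⊂ K((q))` over a subfield `K ⊂ ℚ̄`. -/
abbrev FK (K : IntermediateField ℚ Qbar) : IntermediateField K (LaurentSeries K) :=
  laurentBaseChange K F₀

theorem FK_full (M : ℕ) (K : IntermediateField ℚ Qbar) :
    FK (modularFunctionFieldFull M) K = Fermat.Agent.RED.Interface4.FK M K := rfl

variable (n e : ℕ) [NeZero n] (A : ValuationSubring Qbar)

/-- `P K ϖ t` holds over all sufficiently large number fields `K`, for every uniformiser `ϖ` of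
`A_K` and `t = tq K n e ∈ FK F₀ K`. -/
def EventuallyT
    (P : ∀ K : IntermediateField ℚ Qbar, ↥(AK A K) → ↥(FK F₀ K) → Prop) : Prop :=
  ∃ K₀ : IntermediateField ℚ Qbar, FiniteDimensional ℚ K₀ ∧
    ∀ K : IntermediateField ℚ Qbar, FiniteDimensional ℚ K → K₀ ≤ K →
      ∀ ϖ : ↥(AK A K), Irreducible ϖ →
        ∀ t : ↥(FK F₀ K), (t : LaurentSeries K) = tq K n e → P K ϖ t

/-- **Target of PUR-concrete**: (LOC) at the non-cusp closed points of the chart `t`. -/
def OffTarget (cv : SL(2, ℤ) → Option Kbar) : Prop :=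
  EventuallyT F₀ n e A fun K ϖ t => SmoothOff (AK A K) (FK F₀ K) ϖ t (cuspSet A K cv)

/-- **Target of CUSP-concrete**: (LOC) at the closed points over the finite cusp values. -/
def OverTarget (cv : SL(2, ℤ) → Option Kbar) : Prop :=
  EventuallyT F₀ n e A fun K ϖ t => ∀ c ∈ cuspSet A K cv, SmoothOver (AK A K) (FK F₀ K) ϖ t c

/-- **Target of CUSP-concrete at infinity**: (LOC) at the closed points `t⁻¹ = 0` of the chart
`t⁻¹`. -/
def InfTarget : Prop :=
  EventuallyT F₀ n e A fun K ϖ t => SmoothOver (AK A K) (FK F₀ K) ϖ t⁻¹ 0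

/-- **(T1)**: the Hauptmodul lies in `K·F₀` for all large number fields `K`. -/
def TTarget : Prop :=
  ∃ K₁ : IntermediateField ℚ Qbar, FiniteDimensional ℚ K₁ ∧
    ∀ K : IntermediateField ℚ Qbar, FiniteDimensional ℚ K → K₁ ≤ K → tq K n e ∈ FK F₀ K

/-! ### the old targets are the instance `F₀ = modularFunctionFieldFull M` -/

theorem offTarget_iff (M : ℕ) [NeZero M] (cv : SL(2, ℤ) → Option Kbar) :
    OffTarget (modularFunctionFieldFull M) n e A cv ↔
      Fermat.Agent.RED.ModelTargets4.OffTarget n e M A cv := Iff.rfl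

theorem overTarget_iff (M : ℕ) [NeZero M] (cv : SL(2, ℤ) → Option Kbar) :
    OverTarget (modularFunctionFieldFull M) n e A cv ↔
      Fermat.Agent.RED.ModelTargets4.OverTarget n e M A cv := Iff.rfl

theorem infTarget_iff (M : ℕ) [NeZero M] :
    InfTarget (modularFunctionFieldFull M) n e A ↔
      Fermat.Agent.RED.ModelTargets4.InfTarget n e M A := Iff.rfl

theorem tTarget_iff (M : ℕ) [NeZero M] :
    TTarget (modularFunctionFieldFull M) n e ↔
      Fermat.Agent.RED.ModelTargets4.TTarget n e M := Iff.rfl

/-! ### monotonicity in `F₀` of the bridge target -/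

variable {F₀} in
/-- enlarging the rational field keeps (T1). -/
theorem TTarget.mono {F₁ : IntermediateField ℚ (LaurentSeries ℚ)} (h : F₀ ≤ F₁)
    (hT : TTarget F₀ n e) : TTarget F₁ n e := by
  obtain ⟨K₁, hK₁, hK⟩ := hT
  refine ⟨K₁, hK₁, fun K hKfd hle => ?_⟩
  have hmono : FK F₀ K ≤ FK F₁ K := by
    unfold FK laurentBaseChange
    exact IntermediateField.adjoin.mono _ _ _ (Set.image_mono h)
  exact hmono (hK K hKfd hle)

end Fermat.Agent.DS.G.RED.ModelTargets4
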