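/-
DS/G (generic twins), chapter RED, helper77.  Twin of `RED/ModelMain4` + `RED/ModelFinal4`
(MODEL, concrete assembly) for an ARBITRARY rational field
`F₀ : IntermediateField ℚ (LaurentSeries ℚ)` in place of `modularFunctionFieldFull M`.

The three facts about `X₀(M)` which the original proof takes from `GaussBridge10`,
`DegBaseChange25`, `GaussInst25` are turned into the hypothesis structure `GaussInputs F₀ A`:

* `le_fracField` : `K·F₀ ⊂ Frac A_K((q))`                         (GaussBridge10.FK_le_fracField);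
* `relfinrank_ne_zero` : `[K·F₀ : K(j)] ≠ 0`, `j ∈ K·F₀`           (DegBaseChange25 … = ψ(M));
* `degLe_irr` : (DEG)+(IRR) of `G1Package8` for every `t ∈ gaussRing ∩ K·F₀` with `j ∈ K(t)` and
  transcendental reduction       (GaussInst25.exists_degLe_irr_FK; DS: `Igu77.Final.g1_of_igusaInput`),
for all sufficiently large number fields `K` (`GaussInputsAt F₀ A K`, `GaussInputs F₀ A`).

`modelStep_of_targets` : `GaussInputs` + the membership `tq ℚ̄ n e ∈ ℚ̄·F₀` + `TGenBase n e`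
(`ℚ̄(t) = ℚ̄·F_n`, a statement about the BASE level only) + the three smoothness targets give
`ModelStep F₀ A`, two-chart models of `K·F₀` over `A ∩ K` for all large number fields `K`;
`numStep_of_model` : NUM from MODEL (CORE and `AlgClosedIn` are generic already).
-/
import Mathlib
import Fermat.Agent.DS.G.RED.ModelTargets4
import Fermat.Agent.RED.ModelFinal4

set_option autoImplicit false

open HahnSeries ModularCurve IntermediateField
open scoped MatrixGroups

noncomputable section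

namespace Fermat.Agent.DS.G.RED.ModelMain4

open Fermat.Agent.RED.Interface4 (Qbar AK)
open Fermat.Agent.RED.PUR.GaussGen8 Fermat.Agent.RED.PUR.KtGauss8
  Fermat.Agent.RED.PUR.G1Package8 Fermat.Agent.RED.ModelIface4
  Fermat.Agent.RED.BASE.EtaQuot12 Fermat.Agent.X0 Fermat.Agent.RED.NumInst4
  Fermat.Agent.RED.DESC.NumberFieldDVR27
open Fermat.Agent.RED.ModelTargets4 (cuspSet JTarget tq_mem_gaussRing transcendental_gaussRed_tq)
open Fermat.Agent.DS.G.RED.ModelTargets4

variable (F₀ : IntermediateField ℚ (LaurentSeries ℚ)) (A : ValuationSubring Qbar)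

/-- The deliverable of MODEL for `F₀` over the place `A`. -/
def ModelStep : Prop :=
  ∃ K₀ : IntermediateField ℚ Qbar, FiniteDimensional ℚ K₀ ∧
    ∀ K : IntermediateField ℚ Qbar, FiniteDimensional ℚ K → K₀ ≤ K →
      HasModel (AK A K) (FK F₀ K)

/-- `(CL)` over all sufficiently large number fields, for `F₀`. -/
def NumStep (ℓ : ℕ) : Prop :=
  ∃ K₀ : IntermediateField ℚ Qbar, FiniteDimensional ℚ K₀ ∧
    ∀ K : IntermediateField ℚ Qbar, FiniteDimensional ℚ K → K₀ ≤ K →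
      CLStmt (AK A K) (FK F₀ K) ℓ

theorem modelStep_iff (M : ℕ) :
    ModelStep (modularFunctionFieldFull M) A ↔ Fermat.Agent.RED.NumMain4.ModelStep M A := Iff.rfl

theorem numStep_iff (ℓ M : ℕ) :
    NumStep (modularFunctionFieldFull M) A ℓ ↔ Fermat.Agent.RED.InterfaceGe4.NumStep ℓ M A :=
  Iff.rfl

/-- **NUM from MODEL**, generic `F₀` (copy of `NumMain4.numStep_of_model`). -/
theorem numStep_of_model {ℓ : ℕ} (hℓ : ℓ.Prime) (hA : A.LiesOverPrime ℓ)
    (h : ModelStep F₀ A) : NumStep F₀ A ℓ := by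
  obtain ⟨K₀, hK₀, hK⟩ := h
  refine ⟨K₀, hK₀, fun K hKfd hle => ?_⟩
  exact clStmt_of_hasModel ℓ (Fermat.Agent.RED.NumMain4.coreBAt (AK A K) (FK F₀ K))
    (hK K hKfd hle) (Fermat.Agent.RED.PUR.AlgClosedIn10.algClosedIn (FK F₀ K))
    (exists_inv_of_not_dvd hℓ hA K)

/-- The inputs of MODEL-assembly which depend on the arithmetic of the level (Gauss bridge,
degree over `K(j)`, and (DEG)+(IRR), i.e. irreducibility of the reduction), at one number field. -/
structure GaussInputsAt (K : IntermediateField ℚ Qbar) : Prop where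
  le_fracField : FK F₀ K ≤ fracField (AK A K)
  j_mem : jqModC K ∈ FK F₀ K
  relfinrank_ne_zero : relfinrank K⟮jqModC K⟯ (FK F₀ K) ≠ 0
  degLe_irr : ∀ [IsDiscreteValuationRing ↥(AK A K)] (tG : ↥(gaussRing (AK A K))),
      (tG : LaurentSeries K) ∈ FK F₀ K → jqModC K ∈ Kt (AK A K) tG →
      Transcendental (Res (AK A K)) (gaussRed (AK A K) tG) →
      ∃ n : ℕ, n ≠ 0 ∧ DegLe (AK A K) (FK F₀ K) tG n ∧ Irr (AK A K) (FK F₀ K) tG n

/-- The same over all sufficiently large number fields (the Igusa chapter needs `ζ_M ∈ K`). -/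
def GaussInputs : Prop :=
  ∃ K₀ : IntermediateField ℚ Qbar, FiniteDimensional ℚ K₀ ∧
    ∀ K : IntermediateField ℚ Qbar, FiniteDimensional ℚ K → K₀ ≤ K → GaussInputsAt F₀ A K

section Generic

variable {F₀ A}

/-- `[K·F₀ : K(t)] ≠ 0` for `t ∈ K·F₀` with `j ∈ K(t)`. -/
theorem relfinrank_ne_zero {K : IntermediateField ℚ Qbar} (hG : GaussInputsAt F₀ A K)
    (tG : ↥(gaussRing (AK A K)))
    (htE : (tG : LaurentSeries K) ∈ FK F₀ K) (hjt : jqModC K ∈ Kt (AK A K) tG) :
    relfinrank (Kt (AK A K) tG) (FK F₀ K) ≠ 0 := by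
  have h1 : K⟮jqModC K⟯ ≤ Kt (AK A K) tG := adjoin_simple_le_iff.mpr hjt
  have h2 : Kt (AK A K) tG ≤ FK F₀ K := adjoin_simple_le_iff.mpr htE
  have hmul := relfinrank_mul_relfinrank h1 h2
  intro h0
  rw [h0, mul_zero] at hmul
  exact hG.relfinrank_ne_zero hmul.symm

end Generic

variable {F₀ A} {n e : ℕ} [NeZero n]

/-- **(T1)** for `F₀`: if `tq ℚ̄ n e ∈ ℚ̄·F₀` then `tq K n e ∈ K·F₀` for all large number fields
(copy of `TBridge15.exists_tq_mem`, which was generic in `F₀` already). -/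
theorem tTarget (h : tq Qbar n e ∈ laurentBaseChange Qbar F₀) : TTarget F₀ n e := by
  have : Algebra.IsAlgebraic ℚ Qbar := AlgebraicClosure.isAlgebraic ℚ
  obtain ⟨K₁, -, hfin, x', hx', hx⟩ :=
    Fermat.Agent.RED.DESC.CoeffDescent1.exists_finite_descent (F₀ := F₀)
      (⊥ : IntermediateField ℚ Qbar) h
  refine ⟨K₁, hfin, fun K _ hK => ?_⟩
  obtain ⟨x'', hx'', h''⟩ := Fermat.Agent.RED.DESC.CoeffDescent1.exists_lift_of_le hK hx'
  have hcm : coeffMap (algebraMap ↥K Qbar) x'' = coeffMap (algebraMap ↥K Qbar) (tq ↥K n e) := by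
    rw [h'', hx, coeffMap_tq]
  have : x'' = tq ↥K n e :=
    Fermat.Agent.RED.DESC.CoeffDescent1.coeffMap_injective (algebraMap ↥K Qbar) hcm
  rw [← this]
  exact hx''

/-- **MODEL from the concrete targets**, generic `F₀`. -/
theorem modelStep_of_targets {ℓ : ℕ} [Fact ℓ.Prime] (hA : A.LiesOverPrime ℓ)
    (hG : GaussInputs F₀ A) (cv : SL(2, ℤ) → Option Kbar)
    (hT : TTarget F₀ n e) (hJ : JTarget n e) (hoff : OffTarget F₀ n e A cv)
    (hover : OverTarget F₀ n e A cv) (hinf : InfTarget F₀ n e A) : ModelStep F₀ A := by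
  have hℓ : ℓ.Prime := Fact.out
  obtain ⟨K₁, hK₁, hT⟩ := hT
  obtain ⟨K₂, hK₂, hJ⟩ := hJ
  obtain ⟨K₃, hK₃, hoff⟩ := hoff
  obtain ⟨K₄, hK₄, hover⟩ := hover
  obtain ⟨K₅, hK₅, hinf⟩ := hinf
  obtain ⟨K₆, hK₆, hG⟩ := hG
  refine ⟨K₁ ⊔ K₂ ⊔ K₃ ⊔ K₄ ⊔ K₅ ⊔ K₆, inferInstance, fun K hKfd hle => ?_⟩
  have hle' : K₁ ⊔ K₂ ⊔ K₃ ⊔ K₄ ⊔ K₅ ≤ K := le_trans le_sup_left hle
  have hle6 : K₆ ≤ K := le_trans le_sup_right hle
  have hG := hG K hKfd hle6
  have hle1 : K₁ ≤ K := le_trans (le_trans (le_trans (le_trans le_sup_left le_sup_left)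
    le_sup_left) le_sup_left) hle'
  have hle2 : K₂ ≤ K := le_trans (le_trans (le_trans (le_trans le_sup_right le_sup_left)
    le_sup_left) le_sup_left) hle'
  have hle3 : K₃ ≤ K := le_trans (le_trans (le_trans le_sup_right le_sup_left) le_sup_left) hle'
  have hle4 : K₄ ≤ K := le_trans (le_trans le_sup_right le_sup_left) hle'
  have hle5 : K₅ ≤ K := le_trans le_sup_right hle'
  have hdvr : IsDiscreteValuationRing ↥(AK A K) := isDiscreteValuationRing_AK A K hℓ.ne_zero hA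
  obtain ⟨ϖ, hϖ⟩ := IsDiscreteValuationRing.exists_irreducible ↥(AK A K)
  have hfin : Finite (↥(AK A K) ⧸ (Ideal.span {ϖ} : Ideal ↥(AK A K))) := by
    have h1 : Finite (IsLocalRing.ResidueField ↥(AK A K)) :=
      finite_residueField_AK A K hℓ.ne_zero hA
    rw [← hϖ.maximalIdeal_eq]
    exact h1
  have hE : FK F₀ K ≤ fracField (AK A K) := hG.le_fracField
  have htE : tq K n e ∈ FK F₀ K := hT K hKfd hle1
  let t : ↥(FK F₀ K) := ⟨tq K n e, htE⟩
  have ht : ((t : ↥(FK F₀ K)) : LaurentSeries K) ∈ gaussRing (AK A K) :=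
    tq_mem_gaussRing (AK A K) n e
  have htr : Transcendental (Res (AK A K))
      (gaussRed (AK A K) ⟨((t : ↥(FK F₀ K)) : LaurentSeries K), ht⟩) :=
    transcendental_gaussRed_tq (AK A K) n e
  have hjt : jqModC K ∈ Kt (AK A K) ⟨((t : ↥(FK F₀ K)) : LaurentSeries K), ht⟩ := hJ K hKfd hle2
  obtain ⟨nn, -, hdeg, hirr⟩ := hG.degLe_irr
    ⟨((t : ↥(FK F₀ K)) : LaurentSeries K), ht⟩ htE hjt htr
  have hn : relfinrank (Kt (AK A K) ⟨((t : ↥(FK F₀ K)) : LaurentSeries K), ht⟩) (FK F₀ K) ≠ 0 :=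
    relfinrank_ne_zero hG _ htE hjt
  exact hasModel_of_split hϖ hE t ht htr hn hdeg hirr (cuspSet A K cv)
    (hoff K hKfd hle3 ϖ hϖ t rfl) (hover K hKfd hle4 ϖ hϖ t rfl) (hinf K hKfd hle5 ϖ hϖ t rfl)

/-- **MODEL from (LOC)**, generic `F₀`: twin of `ModelFinal4.modelStep_of_smooth`.  `hgen` is the
statement `ℚ̄(t) = ℚ̄·F_n` about the base level `n` (`Hauptmodul12.tGenBase'`). -/
theorem modelStep_of_smooth (hmem : tq Qbar n e ∈ laurentBaseChange Qbar F₀)
    (hgen : Fermat.Agent.RED.BASE.Interface12.TGenBase n e)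
    {ℓ : ℕ} [Fact ℓ.Prime] (hA : A.LiesOverPrime ℓ) (hG : GaussInputs F₀ A)
    (cv : SL(2, ℤ) → Option Kbar) (hoff : OffTarget F₀ n e A cv) (hover : OverTarget F₀ n e A cv)
    (hinf : InfTarget F₀ n e A) : ModelStep F₀ A :=
  modelStep_of_targets hA hG cv (tTarget hmem) (Fermat.Agent.RED.ModelFinal4.jTarget hgen)
    hoff hover hinf

/-- **NUM from (LOC)**, generic `F₀`: twin of `ModelFinal4.numStep_of_smooth`. -/
theorem numStep_of_smooth (hmem : tq Qbar n e ∈ laurentBaseChange Qbar F₀)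
    (hgen : Fermat.Agent.RED.BASE.Interface12.TGenBase n e)
    {ℓ : ℕ} [Fact ℓ.Prime] (hA : A.LiesOverPrime ℓ) (hG : GaussInputs F₀ A)
    (cv : SL(2, ℤ) → Option Kbar) (hoff : OffTarget F₀ n e A cv) (hover : OverTarget F₀ n e A cv)
    (hinf : InfTarget F₀ n e A) : NumStep F₀ A ℓ :=
  numStep_of_model F₀ A Fact.out hA (modelStep_of_smooth hmem hgen hA hG cv hoff hover hinf)

/-- Membership of the Hauptmodul passes to every rational field containing `F_M`, `n ∣ M`
(in particular to the function field of `X₁(M)`). -/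
theorem tq_mem_of_le (hb : Fermat.Agent.RED.BASE.Hauptmodul12.BaseHyp n e) {M : ℕ} [NeZero M]
    (hnM : n ∣ M) (hle : modularFunctionFieldFull M ≤ F₀) :
    tq Qbar n e ∈ laurentBaseChange Qbar F₀ := by
  have h : Fermat.Agent.RED.BASE.Interface12.TMem n e M :=
    Fermat.Agent.RED.BASE.Hauptmodul12.tMem_of_dvd hb hnM
  have hmono : laurentBaseChange Qbar (modularFunctionFieldFull M) ≤ laurentBaseChange Qbar F₀ := by
    unfold laurentBaseChange
    exact IntermediateField.adjoin.mono _ _ _ (Set.image_mono hle)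
  exact hmono h

end Fermat.Agent.DS.G.RED.ModelMain4
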