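/-
DS/G (generic twins), chapter RED, helper77: **`GaussInputs F₀ A` from the Igusa chapter**.

For a rational field `F₀ ⊂ ℚ((q))`, a place `A` of `ℚ̄` over `ℓ ∤ M`, and a number field `K`:
if `K·F₀ ≤ Frac A_K((q))`, `j ∈ K·F₀` and there is an `IgusaInput K A_K M` (the level-`M` field with
its Galois action, chapter IGU-D) with `V(K·F₀) ⊆ ι(L)`, then all the arithmetic inputs
`GaussInputsAt F₀ A K` of the MODEL assembly hold (`Igu77.Final.g1_of_igusaInput`).
-/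
import Mathlib
import Fermat.Agent.DS.G.RED.ModelMain4
import Fermat.Agent.DS.Igu77.Final

set_option autoImplicit false

open HahnSeries ModularCurve IntermediateField

noncomputable section

namespace Fermat.Agent.DS.G.RED.GaussInputsOfIgusa

open Fermat.Agent.RED.Interface4 (Qbar AK)
open Fermat.Agent.RED.PUR.GaussGen8 Fermat.Agent.RED.PUR.KtGauss8
  Fermat.Agent.RED.PUR.G1Package8 Fermat.Agent.RED.DESC.NumberFieldDVR27
open Fermat.Agent.DS.G.RED.ModelTargets4 Fermat.Agent.DS.G.RED.ModelMain4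
open Fermat.Agent.DS.Igu77.Input

variable {F₀ : IntermediateField ℚ (LaurentSeries ℚ)} {A : ValuationSubring Qbar}

/-- **The arithmetic inputs of MODEL at `K` from an Igusa input at `K`.** -/
theorem gaussInputsAt_of_igusaInput {ℓ : ℕ} [Fact ℓ.Prime] (hA : A.LiesOverPrime ℓ)
    (K : IntermediateField ℚ Qbar) [FiniteDimensional ℚ K] (M : ℕ) [NeZero M] (hℓM : ¬ ℓ ∣ M)
    (I : IgusaInput K (AK A K) M) (hE : FK F₀ K ≤ fracField (AK A K))
    (hj : jqModC K ∈ FK F₀ K)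
    (hE1L : ∀ y ∈ FK F₀ K, ∃ b : I.L, I.ι b = qExpand K M y) : GaussInputsAt F₀ A K := by
  have hℓ : ℓ.Prime := Fact.out
  have hchar : CharP (Res (AK A K)) ℓ := charP_residueField_AK A K hℓ hA
  refine ⟨hE, hj, Fermat.Agent.DS.Igu77.Final.relfinrank_j_ne_zero I (FK F₀ K) hj hE1L, ?_⟩
  intro hdvr tG htE hjt htr
  obtain ⟨ϖ, hϖ⟩ := IsDiscreteValuationRing.exists_irreducible ↥(AK A K)
  exact Fermat.Agent.DS.Igu77.Final.exists_degLe_irr_of_igusaInput (AK A K) hϖ ℓ M hℓM I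
    (FK F₀ K) hE hE1L tG htE hjt htr

/-- **`GaussInputs F₀ A`** from Igusa inputs over all sufficiently large number fields. -/
theorem gaussInputs_of_igusaInput {ℓ : ℕ} [Fact ℓ.Prime] (hA : A.LiesOverPrime ℓ)
    (M : ℕ) [NeZero M] (hℓM : ¬ ℓ ∣ M)
    (h : ∃ K₀ : IntermediateField ℚ Qbar, FiniteDimensional ℚ K₀ ∧
      ∀ K : IntermediateField ℚ Qbar, FiniteDimensional ℚ K → K₀ ≤ K →
        FK F₀ K ≤ fracField (AK A K) ∧ jqModC K ∈ FK F₀ K ∧
        ∃ I : IgusaInput K (AK A K) M, ∀ y ∈ FK F₀ K, ∃ b : I.L, I.ι b = qExpand K M y) :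
    GaussInputs F₀ A := by
  obtain ⟨K₀, hK₀, h⟩ := h
  refine ⟨K₀, hK₀, fun K hK hle => ?_⟩
  obtain ⟨hE, hj, I, hE1L⟩ := h K hK hle
  exact gaussInputsAt_of_igusaInput hA K M hℓM I hE hj hE1L

end Fermat.Agent.DS.G.RED.GaussInputsOfIgusa
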