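/-
DS programme (S48), GEO half, chapter G-RED (helper28), brick R1.

GENERIC copy of the chapter contracts `RED/Interface4` + `RED/InterfaceGe4` of Program H (S18),
with the function field `modularFunctionFieldFull M ⊂ ℚ((q))` replaced by an ARBITRARY subfield
`F₀ : IntermediateField ℚ (LaurentSeries ℚ)`:

* `FbarG F₀ = ℚ̄·F₀ ⊂ ℚ̄((q))`, `FKG F₀ K = K·F₀ ⊂ K((q))`;
* `CLBarG ℓ F₀ A`  : the core lemma over `ℚ̄`, field form;
* `CLNumG ℓ F₀ A K`: the core lemma over a number field `K ⊂ ℚ̄`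
  (it is literally `NumInst4.CLStmt (AK A K) (FKG F₀ K) ℓ`);
* `DescStepGeG`, `NumStepG`, `clBarG_of_descStepGe`.

At `F₀ = modularFunctionFieldFull M` these are the statements of Program H (`*_iff_red`).
-/
import Mathlib
import Fermat.Agent.RED.InterfaceGe4
import Fermat.Agent.RED.NumInst4

set_option autoImplicit false

open HahnSeries AlgebraicCurve ModularCurve

noncomputable section

namespace Fermat.Agent.DS.G.RED.Iface

open Fermat.Agent.RED.Interface4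

variable (F₀ : IntermediateField ℚ (LaurentSeries ℚ))

/-- `ℚ̄·F₀ ⊂ ℚ̄((q))`. -/
abbrev FbarG : IntermediateField Qbar (LaurentSeries Qbar) := laurentBaseChange Qbar F₀

/-- `K·F₀ ⊂ K((q))` for a subfield `K ⊂ ℚ̄`. -/
abbrev FKG (K : IntermediateField ℚ Qbar) : IntermediateField K (LaurentSeries K) :=
  laurentBaseChange K F₀

/-- **(CL) over `ℚ̄`, field form**, for the function field `ℚ̄·F₀`. -/
def CLBarG (ℓ : ℕ) (A : ValuationSubring Qbar) : Prop :=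
  ∀ (P Q : LaurentSeries A)
    (hP : coeffMap A.subtype P ∈ FbarG F₀) (hQ : coeffMap A.subtype Q ∈ FbarG F₀),
    coeffMap (IsLocalRing.residue A) P = coeffMap (IsLocalRing.residue A) Q →
    coeffMap (IsLocalRing.residue A) P ≠ 0 →
    ∀ m : ℕ, ¬ ℓ ∣ m →
      (∀ v : Place Qbar (FbarG F₀),
        (m : ℤ) ∣ v.ord (⟨coeffMap A.subtype P, hP⟩ : FbarG F₀) -
          v.ord (⟨coeffMap A.subtype Q, hQ⟩ : FbarG F₀)) →
      ∃ s : FbarG F₀, s ^ m * (⟨coeffMap A.subtype Q, hQ⟩ : FbarG F₀) = ⟨coeffMap A.subtype P, hP⟩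

/-- **(CL) over a number field `K ⊂ ℚ̄`**, conclusion up to a nonzero constant: the abstract
`NumInst4.CLStmt` at `(K, A ∩ K, K·F₀)`, i.e.

  `∀ (P Q : LaurentSeries (AK A K)) (hP : coeffMap (AK A K).subtype P ∈ FKG F₀ K) (hQ : …),`
  `  P~ = Q~ → P~ ≠ 0 → ∀ m, ¬ ℓ ∣ m → (∀ v : Place K (FKG F₀ K), (m:ℤ) ∣ v.ord P - v.ord Q) →`
  `  ∃ (c : K) (s : FKG F₀ K), c ≠ 0 ∧ s ^ m * Q = c • P`. -/
def CLNumG (ℓ : ℕ) (A : ValuationSubring Qbar) (K : IntermediateField ℚ Qbar) : Prop :=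
  Fermat.Agent.RED.NumInst4.CLStmt (AK A K) (FKG F₀ K) ℓ

/-- `CLNumG` is the abstract `NumInst4.CLStmt` at `(K, A ∩ K, K·F₀)`. -/
theorem clNumG_iff (ℓ : ℕ) (A : ValuationSubring Qbar) (K : IntermediateField ℚ Qbar) :
    CLNumG F₀ ℓ A K ↔ Fermat.Agent.RED.NumInst4.CLStmt (AK A K) (FKG F₀ K) ℓ :=
  Iff.rfl

/-- **Chapter DESC**, generic shape. -/
def DescStepGeG (ℓ : ℕ) (A : ValuationSubring Qbar) : Prop :=
  ∀ K₀ : IntermediateField ℚ Qbar, FiniteDimensional ℚ K₀ →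
    (∀ K : IntermediateField ℚ Qbar, FiniteDimensional ℚ K → K₀ ≤ K → CLNumG F₀ ℓ A K) →
      CLBarG F₀ ℓ A

/-- **CORE + MODEL**, generic shape. -/
def NumStepG (ℓ : ℕ) (A : ValuationSubring Qbar) : Prop :=
  ∃ K₀ : IntermediateField ℚ Qbar, FiniteDimensional ℚ K₀ ∧
    ∀ K : IntermediateField ℚ Qbar, FiniteDimensional ℚ K → K₀ ≤ K → CLNumG F₀ ℓ A K

variable {F₀}

theorem clBarG_of_descStepGe {ℓ : ℕ} {A : ValuationSubring Qbar}
    (hdesc : DescStepGeG F₀ ℓ A) (hnum : NumStepG F₀ ℓ A) : CLBarG F₀ ℓ A := by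
  obtain ⟨K₀, hK₀, h⟩ := hnum
  exact hdesc K₀ hK₀ h

/-! ### comparison with Program H -/

theorem clBarG_iff_red (ℓ M : ℕ) (A : ValuationSubring Qbar) :
    CLBarG (modularFunctionFieldFull M) ℓ A ↔ CLBar ℓ M A :=
  Iff.rfl

theorem clNumG_iff_red (ℓ M : ℕ) (A : ValuationSubring Qbar) (K : IntermediateField ℚ Qbar) :
    CLNumG (modularFunctionFieldFull M) ℓ A K ↔ CLNum ℓ M A K :=
  (Fermat.Agent.RED.NumInst4.clNum_iff ℓ M A K).symm

/-! ### NUM from CORE + MODEL (all inputs are already generic in Program H) -/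

open Fermat.Agent.RED.NumInst4 in
/-- **NUM from MODEL, generic.**  If over every number field `K ⊇ K₀` there is a two-chart model of
`K·F₀` over `A ∩ K` (with the Gauss valuation ring) then `NumStepG`.  (`CoreBAt` and `AlgClosedIn`
hold for every subfield of `K((q))`; they are kept as hypotheses here to keep this file light; see
`RED/NumMain4.coreBAt` and `RED/PUR/AlgClosedIn10.algClosedIn`.) -/
theorem numStepG_of_models {ℓ : ℕ} (hℓ : ℓ.Prime) {A : ValuationSubring Qbar}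
    (hA : A.LiesOverPrime ℓ)
    (h : ∃ K₀ : IntermediateField ℚ Qbar, FiniteDimensional ℚ K₀ ∧
      ∀ K : IntermediateField ℚ Qbar, FiniteDimensional ℚ K → K₀ ≤ K →
        CoreBAt (AK A K) (FKG F₀ K) ∧ HasModel (AK A K) (FKG F₀ K) ∧ AlgClosedIn (FKG F₀ K)) :
    NumStepG F₀ ℓ A := by
  obtain ⟨K₀, hK₀, hK⟩ := h
  refine ⟨K₀, hK₀, fun K hKfd hle => ?_⟩
  obtain ⟨hcore, hmodel, halg⟩ := hK K hKfd hle
  exact (clNumG_iff F₀ ℓ A K).mpr
    (clStmt_of_hasModel ℓ hcore hmodel halg (exists_inv_of_not_dvd hℓ hA K))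

end Fermat.Agent.DS.G.RED.Iface

end
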