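/-
DS programme (S48), GEO half, chapter G-RED (helper28), brick R3.

**NUM from MODEL, generic in the function field** `F₀ ⊂ ℚ((q))`: the abstract core
(`RED/CORE/CoreMain24.coreB` through `RED/NumMain4.coreBAt`) and `AlgClosedIn`
(`RED/PUR/AlgClosedIn10.algClosedIn`) are plugged into `G.RED.Iface.numStepG_of_models`.
The ONLY remaining input of `NumStepG F₀ ℓ A` is the deliverable of a MODEL chapter: two-chart
models (`RED/NumInst4.HasModel`, i.e. `CORE/CoreIface24.TwoChartModel` over the Gauss valuation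
ring) of `K·F₀` over `A ∩ K`, for all sufficiently large number fields `K`.
-/
import Mathlib
import Fermat.Agent.DS.G.RED.Iface
import Fermat.Agent.RED.NumMain4

set_option autoImplicit false

open HahnSeries AlgebraicCurve ModularCurve

noncomputable section

namespace Fermat.Agent.DS.G.RED.Num

open Fermat.Agent.RED.Interface4 Fermat.Agent.RED.NumInst4 Fermat.Agent.DS.G.RED.Iface

/-- The deliverable of a MODEL chapter for the function field `F₀`, over the place `A`. -/
def ModelStepG (F₀ : IntermediateField ℚ (LaurentSeries ℚ)) (A : ValuationSubring Qbar) : Prop :=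
  ∃ K₀ : IntermediateField ℚ Qbar, FiniteDimensional ℚ K₀ ∧
    ∀ K : IntermediateField ℚ Qbar, FiniteDimensional ℚ K → K₀ ≤ K →
      HasModel (AK A K) (FKG F₀ K)

/-- **NUM from MODEL**, generic. -/
theorem numStepG_of_model {F₀ : IntermediateField ℚ (LaurentSeries ℚ)} {ℓ : ℕ} (hℓ : ℓ.Prime)
    {A : ValuationSubring Qbar} (hA : A.LiesOverPrime ℓ) (h : ModelStepG F₀ A) :
    NumStepG F₀ ℓ A := by
  obtain ⟨K₀, hK₀, hK⟩ := h
  refine numStepG_of_models hℓ hA ⟨K₀, hK₀, fun K hKfd hle => ⟨?_, hK K hKfd hle, ?_⟩⟩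
  · exact Fermat.Agent.RED.NumMain4.coreBAt (AK A K) (FKG F₀ K)
  · exact Fermat.Agent.RED.PUR.AlgClosedIn10.algClosedIn (FKG F₀ K)

/-- At `F₀ = modularFunctionFieldFull M` this is Program H's `ModelStep`. -/
theorem modelStepG_iff_red (M : ℕ) (A : ValuationSubring Qbar) :
    ModelStepG (modularFunctionFieldFull M) A ↔ Fermat.Agent.RED.NumMain4.ModelStep M A :=
  Iff.rfl

end Fermat.Agent.DS.G.RED.Num

end
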