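/-
DS programme (S48), GEO half, chapter G-RED (helper28), brick R4.

**Chapter TOP of Program H (S18), generic in the pair of function fields**
`(F₀ ⊂ ℚ((q)), Ft ⊂ k((q)))`, `k` the residue field of a valuation subring `A` of `ℚ̄`:

  `red_injective_of_CLBarG` : for an explicit place reduction map `r`
  (`Defs.IsPlaceReductionAlongG`), `Defs.reductionPic0AlongG r hr hgen` is injective on the
  prime-to-`ℓ` torsion of `Pic⁰(ℚ̄·F₀)`, given
    * the core lemma `Iface.CLBarG ℓ F₀ A` (chapters DESC + CORE + MODEL),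
    * `hx : FF.IsGen ℚ̄ x` (`ℚ̄·F₀ / ℚ̄` is a function field in one variable),
    * `hlift : LiftRatioG A (residue A) F₀ Ft` (every nonzero element of `Ft` is a ratio of
      reductions of `A`-integral elements of `ℚ̄·F₀`; `liftRatioG_of_generators` gives it when `Ft`
      is generated over `k` by reductions of `A`-integral series lying in `ℚ̄·F₀`).

Verbatim copies of `RED/TOP/ConstViaR20` (the lemma), `RED/TOP/S18Top20` (section `Along`),
`RED/TOP/S18TopAt20` (`CLAt`, `CLFieldAt`), `RED/TOP/LiftRatio2`, `ES/RED/RedInj12`, with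
`(modularFunctionFieldFull N, modularFunctionFieldFullC k N)` replaced by `(F₀, Ft)`.
-/
import Mathlib
import Fermat.Agent.DS.G.RED.Defs
import Fermat.Agent.DS.G.RED.Iface
import Fermat.Agent.RED.TOP.ConstViaR20
import Fermat.Agent.X0.FFGenus

set_option autoImplicit false
set_option synthInstance.maxHeartbeats 400000
set_option linter.unusedSectionVars false

noncomputable section

open HahnSeries IntermediateField AlgebraicCurve ModularCurve

namespace Fermat.Agent.DS.G.RED.Top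

open Fermat.Agent.X0 Fermat.Agent.X0.FF Fermat.Agent.RED.TOP.ConstViaR20
open Fermat.Agent.RED.Interface4 Fermat.Agent.DS.G.RED.Defs Fermat.Agent.DS.G.RED.Iface


/-! ### The lemma -/

section Const

variable {L : Type*} [Field L] [Algebra ℚ L] {A : ValuationSubring L}
variable {k : Type*} [Field k] {π : A →+* k}
variable {F₀ : IntermediateField ℚ (LaurentSeries ℚ)} {Ft : IntermediateField k (LaurentSeries k)}
variable {r : Place L (laurentBaseChange L F₀) → Place k Ft}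

theorem C_mem_barG (c : L) :
    (HahnSeries.C c : LaurentSeries L) ∈ laurentBaseChange L F₀ := by
  have h := (laurentBaseChange L F₀).algebraMap_mem c
  rwa [algebraMap_laurentSeries_eq_single] at h

theorem C_mem_Ft (c : k) :
    (HahnSeries.C c : LaurentSeries k) ∈ Ft := by
  have h := (Ft).algebraMap_mem c
  rwa [algebraMap_laurentSeries_eq_single] at h

theorem coe_algebraMap_Ft (c : k) :
    ((algebraMap k (Ft) c : Ft) :
      LaurentSeries k) = HahnSeries.C c := by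
  show algebraMap k (LaurentSeries k) c = _
  rw [algebraMap_laurentSeries_eq_single, HahnSeries.C_apply]

/-- **Step (0), constant lemma.**  -/
theorem exists_const_of_ord_eqG
    (hπ : Function.Surjective π)
    (hdiv : HasPrincipalDivisors L ↥(laurentBaseChange L F₀))
    (hdeg1 : ∀ P : Place L (laurentBaseChange L F₀), P.deg = 1)
    (hne : Nonempty (Place L (laurentBaseChange L F₀)))
    (hr : IsPlaceReductionAlongG A π F₀ Ft r)
    (P Q : LaurentSeries A)
    (hP : coeffMap A.subtype P ∈ laurentBaseChange L F₀)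
    (hQ : coeffMap A.subtype Q ∈ laurentBaseChange L F₀)
    (hPk : coeffMap π P ∈ Ft)
    (hQk : coeffMap π Q ∈ Ft)
    (hQ0 : coeffMap π Q ≠ 0)
    (hord : ∀ Q' : Place k (Ft),
      Q'.ord (⟨coeffMap π P, hPk⟩ : Ft) =
        Q'.ord (⟨coeffMap π Q, hQk⟩ : Ft)) :
    ∃ c : A, coeffMap π P = coeffMap π (HahnSeries.C c * Q) := by
  classical
  obtain ⟨p', hp'⟩ : ∃ p' : Ft, p' = ⟨coeffMap π P, hPk⟩ := ⟨_, rfl⟩
  obtain ⟨q', hq'⟩ : ∃ q' : Ft, q' = ⟨coeffMap π Q, hQk⟩ := ⟨_, rfl⟩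
  rw [← hp', ← hq'] at hord
  have hp'v : (p' : LaurentSeries k) = coeffMap π P := by rw [hp']
  have hq'v : (q' : LaurentSeries k) = coeffMap π Q := by rw [hq']
  have hq'0 : q' ≠ 0 := by
    intro h
    apply hQ0
    rw [← hq'v, h]
    rfl
  -- `u = p'/q'` lies in every valuation ring
  have hu_mem : ∀ Q' : Place k (Ft),
      p' / q' ∈ Q'.toValuationSubring := by
    intro Q'
    rw [ffp_mem_iff_ord_nonneg]
    rcases eq_or_ne p' 0 with h0 | h0
    · rw [h0, zero_div]; simp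
    · rw [div_eq_mul_inv, Q'.ord_mul h0 (inv_ne_zero hq'0), Q'.ord_inv, hord Q']
      simp
  have hQL0 : (⟨coeffMap A.subtype Q, hQ⟩ :
      laurentBaseChange L F₀) ≠ 0 := by
    intro h0
    exact coeffMap_ne_zero_of_injective A.subtype_injective
      (ne_zero_of_coeffMap_ne_zero hQ0) (congrArg Subtype.val h0)
  obtain ⟨DQ, hDQ, hDQ0⟩ := hdiv.exists_divisor _ hQL0
  have hEQ : ∀ Q' : Place k (Ft),
      Finsupp.mapDomain r DQ Q' = Q'.ord q' := by
    intro Q'
    rw [hq']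
    exact hr.2 Q hQ hQk hQ0 DQ hDQ Q'
  obtain ⟨c', hc'⟩ := exists_const_abstract r hr.1 hdeg1 hne q' (p' / q') hq'0 hu_mem (by
    intro c' hu_ne
    obtain ⟨c, rfl⟩ := hπ c'
    -- the auxiliary function `y = P - c Q`
    have hyL : coeffMap A.subtype (P - HahnSeries.C c * Q) ∈
        laurentBaseChange L F₀ := by
      rw [map_sub, map_mul, coeffMap_C]
      exact sub_mem hP (mul_mem (C_mem_barG _) hQ)
    have hyk : coeffMap π (P - HahnSeries.C c * Q) ∈ Ft := by
      rw [map_sub, map_mul, coeffMap_C]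
      exact sub_mem hPk (mul_mem (C_mem_Ft _) hQk)
    have hyk_eq : (⟨coeffMap π (P - HahnSeries.C c * Q), hyk⟩ : Ft) =
        q' * (p' / q' - algebraMap k (Ft) (π c)) := by
      apply Subtype.ext
      have h1 : q' * (p' / q' - algebraMap k (Ft) (π c)) =
          p' - algebraMap k (Ft) (π c) * q' := by
        field_simp
      rw [h1]
      show coeffMap π (P - HahnSeries.C c * Q) = (p' : LaurentSeries k) -
        ((algebraMap k (Ft) (π c) :
          Ft) : LaurentSeries k) * (q' : LaurentSeries k)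
      rw [coe_algebraMap_Ft, hp'v, hq'v, map_sub, map_mul, coeffMap_C]
    have hyk0 : coeffMap π (P - HahnSeries.C c * Q) ≠ 0 := by
      intro h0
      have : (⟨coeffMap π (P - HahnSeries.C c * Q), hyk⟩ : Ft) = 0 :=
        Subtype.ext h0
      rw [hyk_eq] at this
      rcases mul_eq_zero.mp this with h | h
      · exact hq'0 h
      · exact hu_ne (sub_eq_zero.mp h)
    have hyL0 : (⟨coeffMap A.subtype (P - HahnSeries.C c * Q), hyL⟩ :
        laurentBaseChange L F₀) ≠ 0 := by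
      intro h0
      exact coeffMap_ne_zero_of_injective A.subtype_injective
        (ne_zero_of_coeffMap_ne_zero hyk0) (congrArg Subtype.val h0)
    obtain ⟨Dy, hDy, hDy0⟩ := hdiv.exists_divisor _ hyL0
    refine ⟨Dy, DQ, hDy0, hDQ0, ?_, hEQ⟩
    intro Q'
    rw [← hyk_eq]
    exact hr.2 _ hyL hyk hyk0 Dy hDy Q')
  obtain ⟨c, rfl⟩ := hπ c'
  refine ⟨c, ?_⟩
  rw [map_mul, coeffMap_C, ← hp'v, ← hq'v, ← coe_algebraMap_Ft (Ft := Ft) (π c)]
  have h2 : p' = algebraMap k (Ft) (π c) * q' := by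
    rw [← hc', div_mul_cancel₀ _ hq'0]
  exact congrArg Subtype.val h2


end Const

/-! ### The lifting property -/

section Lift

variable {L : Type*} [Field L] [Algebra ℚ L] (A : ValuationSubring L)
variable {k : Type*} [Field k] (π : A →+* k)
variable (F₀ : IntermediateField ℚ (LaurentSeries ℚ)) (Ft : IntermediateField k (LaurentSeries k))

/-- Every nonzero element of `Ft` is the ratio of the reductions of two `A`-integral elements of
`L·F₀` whose reductions lie in `Ft` and are nonzero. -/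
def LiftRatioG : Prop :=
  ∀ (g : LaurentSeries k), g ∈ Ft → g ≠ 0 →
    ∃ G₁ G₂ : LaurentSeries A,
      coeffMap A.subtype G₁ ∈ laurentBaseChange L F₀ ∧
      coeffMap A.subtype G₂ ∈ laurentBaseChange L F₀ ∧
      coeffMap π G₁ ∈ Ft ∧ coeffMap π G₂ ∈ Ft ∧
      coeffMap π G₁ ≠ 0 ∧ coeffMap π G₂ ≠ 0 ∧
      g = coeffMap π G₁ / coeffMap π G₂

variable {A π F₀ Ft}

/-- the evaluation `A[X_i] → A((q))`, `X_i ↦ y_i`. -/
def PhiG {ι : Type*} (y : ι → LaurentSeries A) : MvPolynomial ι A →+* LaurentSeries A :=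
  MvPolynomial.eval₂Hom (HahnSeries.C : A →+* LaurentSeries A) y

theorem C_eq_algebraMapG (c : k) :
    (HahnSeries.C c : LaurentSeries k) = algebraMap k (LaurentSeries k) c := by
  rw [algebraMap_laurentSeries_eq_single]
  rfl

omit [Algebra ℚ L] in
/-- reduction of `PhiG` is evaluation of the reduced polynomial at the reduced generators. -/
theorem coeffMap_PhiG {ι : Type*} (y : ι → LaurentSeries A) (R : MvPolynomial ι A) :
    coeffMap π (PhiG y R) =
      MvPolynomial.aeval (fun i => coeffMap π (y i)) (MvPolynomial.map π R) := by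
  induction R using MvPolynomial.induction_on with
  | C a =>
    rw [PhiG, MvPolynomial.coe_eval₂Hom, MvPolynomial.eval₂_C, MvPolynomial.map_C,
      MvPolynomial.aeval_C, coeffMap_C, C_eq_algebraMapG]
  | add p q hp hq => rw [map_add, map_add, hp, hq, map_add, map_add]
  | mul_X p i hp =>
    rw [map_mul, map_mul, hp, map_mul, map_mul, MvPolynomial.map_X, MvPolynomial.aeval_X]
    congr 1
    rw [PhiG, MvPolynomial.coe_eval₂Hom, MvPolynomial.eval₂_X]

/-- `PhiG y R` lies in `L·F₀` if all `y i` do. -/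
theorem coeffMap_subtype_PhiG_mem {ι : Type*} (y : ι → LaurentSeries A)
    (hy : ∀ i, coeffMap A.subtype (y i) ∈ laurentBaseChange L F₀) (R : MvPolynomial ι A) :
    coeffMap A.subtype (PhiG y R) ∈ laurentBaseChange L F₀ := by
  induction R using MvPolynomial.induction_on with
  | C a =>
    rw [PhiG, MvPolynomial.coe_eval₂Hom, MvPolynomial.eval₂_C, coeffMap_C]
    exact C_mem_barG _
  | add p q hp hq => rw [map_add, map_add]; exact add_mem hp hq
  | mul_X p i hp =>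
    rw [map_mul, map_mul]
    refine mul_mem hp ?_
    rw [PhiG, MvPolynomial.coe_eval₂Hom, MvPolynomial.eval₂_X]
    exact hy i

omit [Algebra ℚ L] in
/-- the reduction of `PhiG y R` lies in `Ft` if all reductions of the `y i` do. -/
theorem coeffMap_PhiG_mem {ι : Type*} (y : ι → LaurentSeries A)
    (hyk : ∀ i, coeffMap π (y i) ∈ Ft) (R : MvPolynomial ι A) :
    coeffMap π (PhiG y R) ∈ Ft := by
  induction R using MvPolynomial.induction_on with
  | C a =>
    rw [PhiG, MvPolynomial.coe_eval₂Hom, MvPolynomial.eval₂_C, coeffMap_C]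
    exact C_mem_Ft _
  | add p q hp hq => rw [map_add, map_add]; exact add_mem hp hq
  | mul_X p i hp =>
    rw [map_mul, map_mul]
    refine mul_mem hp ?_
    rw [PhiG, MvPolynomial.coe_eval₂Hom, MvPolynomial.eval₂_X]
    exact hyk i

/-- **(AUX-lift), generic**: if `Ft` is generated over `k` by the reductions of a family of
`A`-integral series lying in `L·F₀`, then `LiftRatioG` holds. -/
theorem liftRatioG_of_generators (hπ : Function.Surjective π) {ι : Type*}
    (y : ι → LaurentSeries A)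
    (hy : ∀ i, coeffMap A.subtype (y i) ∈ laurentBaseChange L F₀)
    (hFt : Ft = IntermediateField.adjoin k (Set.range fun i => coeffMap π (y i))) :
    LiftRatioG A π F₀ Ft := by
  intro g hg hg0
  have hyk : ∀ i, coeffMap π (y i) ∈ Ft := by
    intro i
    rw [hFt]
    exact IntermediateField.subset_adjoin k _ ⟨i, rfl⟩
  rw [hFt, IntermediateField.mem_adjoin_range_iff] at hg
  obtain ⟨r, s, hrs⟩ := hg
  obtain ⟨R, rfl⟩ := MvPolynomial.map_surjective π hπ r
  obtain ⟨S, rfl⟩ := MvPolynomial.map_surjective π hπ s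
  rw [← coeffMap_PhiG y R, ← coeffMap_PhiG y S] at hrs
  refine ⟨PhiG y R, PhiG y S, coeffMap_subtype_PhiG_mem y hy R, coeffMap_subtype_PhiG_mem y hy S,
    coeffMap_PhiG_mem y hyk R, coeffMap_PhiG_mem y hyk S, ?_, ?_, hrs⟩
  · intro h0
    rw [h0, zero_div] at hrs
    exact hg0 hrs
  · intro h0
    rw [h0, div_zero] at hrs
    exact hg0 hrs

end Lift

/-! ### Representing principal divisors by integral functions -/

section Along

variable {L : Type*} [Field L] [Algebra ℚ L] (A : ValuationSubring L)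
variable {k : Type*} [Field k] (π : A →+* k)
variable (F₀ : IntermediateField ℚ (LaurentSeries ℚ)) (Ft : IntermediateField k (LaurentSeries k))

/-- `E = div Y₁ - div Y₂` with `Y₁, Y₂` integral with nonzero reductions in `F~_N`. -/
def GoodRepG (E : Divisor L (laurentBaseChange L F₀)) : Prop :=
  ∃ (Y₁ Y₂ : LaurentSeries A)
    (h₁ : coeffMap A.subtype Y₁ ∈ laurentBaseChange L F₀)
    (h₂ : coeffMap A.subtype Y₂ ∈ laurentBaseChange L F₀),
    coeffMap π Y₁ ∈ Ft ∧ coeffMap π Y₂ ∈ Ft ∧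
    coeffMap π Y₁ ≠ 0 ∧ coeffMap π Y₂ ≠ 0 ∧
    ∀ P : Place L (laurentBaseChange L F₀),
      E P = P.ord (⟨_, h₁⟩ : laurentBaseChange L F₀) -
        P.ord (⟨_, h₂⟩ : laurentBaseChange L F₀)

variable {A π F₀ Ft}

theorem bar_ne_zeroG {y : LaurentSeries A}
    (hy : coeffMap A.subtype y ∈ laurentBaseChange L F₀)
    (hy0 : coeffMap π y ≠ 0) :
    (⟨_, hy⟩ : laurentBaseChange L F₀) ≠ 0 := by
  intro h0
  exact Fermat.Agent.RED.TOP.ConstViaR20.coeffMap_ne_zero_of_injective A.subtype_injective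
    (Fermat.Agent.RED.TOP.ConstViaR20.ne_zero_of_coeffMap_ne_zero hy0) (congrArg Subtype.val h0)

theorem ord_bar_mulG (P : Place L (laurentBaseChange L F₀))
    {y z : LaurentSeries A}
    (hy : coeffMap A.subtype y ∈ laurentBaseChange L F₀)
    (hz : coeffMap A.subtype z ∈ laurentBaseChange L F₀)
    (hyz : coeffMap A.subtype (y * z) ∈ laurentBaseChange L F₀)
    (hy0 : coeffMap π y ≠ 0) (hz0 : coeffMap π z ≠ 0) :
    P.ord (⟨_, hyz⟩ : laurentBaseChange L F₀) =
      P.ord (⟨_, hy⟩ : laurentBaseChange L F₀) +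
        P.ord (⟨_, hz⟩ : laurentBaseChange L F₀) := by
  rw [← P.ord_mul (bar_ne_zeroG hy hy0) (bar_ne_zeroG hz hz0)]
  congr 1
  exact Subtype.ext (map_mul _ _ _)

theorem one_mem_barG :
    coeffMap A.subtype (1 : LaurentSeries A) ∈
      laurentBaseChange L F₀ := by
  rw [map_one]; exact one_mem _

theorem goodRepG_of_mem_closure
    {E : Divisor L (laurentBaseChange L F₀)}
    (hE : E ∈ AddSubgroup.closure (integralPrincipalDivisorsG A π F₀ Ft)) : GoodRepG A π F₀ Ft E := by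
  induction hE using AddSubgroup.closure_induction with
  | mem E hE =>
    obtain ⟨y, hy, hyk, hy0, hEy⟩ := hE
    refine ⟨y, 1, hy, one_mem_barG, hyk, ?_, hy0, ?_, ?_⟩
    · rw [map_one]; exact one_mem _
    · rw [map_one]; exact one_ne_zero
    · intro P
      rw [hEy P]
      have h1 : (⟨_, one_mem_barG⟩ : laurentBaseChange L F₀) = 1 :=
        Subtype.ext (map_one (coeffMap A.subtype))
      rw [h1, P.ord_one, sub_zero]
  | zero =>
    refine ⟨1, 1, one_mem_barG, one_mem_barG, ?_, ?_, ?_, ?_, ?_⟩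
    · rw [map_one]; exact one_mem _
    · rw [map_one]; exact one_mem _
    · rw [map_one]; exact one_ne_zero
    · rw [map_one]; exact one_ne_zero
    · intro P; simp
  | add E E' _ _ hE hE' =>
    obtain ⟨Y₁, Y₂, h₁, h₂, hk₁, hk₂, h0₁, h0₂, hord⟩ := hE
    obtain ⟨Z₁, Z₂, g₁, g₂, gk₁, gk₂, g0₁, g0₂, gord⟩ := hE'
    have m₁ : coeffMap A.subtype (Y₁ * Z₁) ∈ laurentBaseChange L F₀ := by
      rw [map_mul]; exact mul_mem h₁ g₁
    have m₂ : coeffMap A.subtype (Y₂ * Z₂) ∈ laurentBaseChange L F₀ := by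
      rw [map_mul]; exact mul_mem h₂ g₂
    refine ⟨Y₁ * Z₁, Y₂ * Z₂, m₁, m₂, ?_, ?_, ?_, ?_, ?_⟩
    · rw [map_mul]; exact mul_mem hk₁ gk₁
    · rw [map_mul]; exact mul_mem hk₂ gk₂
    · rw [map_mul]; exact mul_ne_zero h0₁ g0₁
    · rw [map_mul]; exact mul_ne_zero h0₂ g0₂
    · intro P
      rw [Finsupp.add_apply, hord P, gord P, ord_bar_mulG P h₁ g₁ m₁ h0₁ g0₁,
        ord_bar_mulG P h₂ g₂ m₂ h0₂ g0₂]
      ring
  | neg E _ hE =>
    obtain ⟨Y₁, Y₂, h₁, h₂, hk₁, hk₂, h0₁, h0₂, hord⟩ := hE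
    refine ⟨Y₂, Y₁, h₂, h₁, hk₂, hk₁, h0₂, h0₁, ?_⟩
    intro P
    rw [Finsupp.neg_apply, hord P]
    ring

end Along

/-! ### The core lemma at one valuation ring -/

section CLAt

variable (F₀ : IntermediateField ℚ (LaurentSeries ℚ))

/-- The core lemma for ONE valuation subring `A`, divisor form. -/
def CLAtG (ℓ : ℕ) (A : ValuationSubring Qbar)
    (Ft : IntermediateField (IsLocalRing.ResidueField A) (LaurentSeries (IsLocalRing.ResidueField A))) :
    Prop :=
  ∀ (P Q : LaurentSeries A) (hP : coeffMap A.subtype P ∈ FbarG F₀)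
    (hQ : coeffMap A.subtype Q ∈ FbarG F₀),
    coeffMap (IsLocalRing.residue A) P = coeffMap (IsLocalRing.residue A) Q →
    coeffMap (IsLocalRing.residue A) Q ≠ 0 →
    coeffMap (IsLocalRing.residue A) Q ∈ Ft →
  ∀ (m : ℕ), ¬ ℓ ∣ m → ∀ D : Divisor Qbar (FbarG F₀),
    (∀ w : Place Qbar (FbarG F₀),
      (m : ℤ) * D w = w.ord ((⟨_, hP⟩ : FbarG F₀) / ⟨_, hQ⟩)) →
    D ∈ Divisor.principal (K := Qbar) (F := FbarG F₀)

/-- The core lemma for ONE valuation subring `A`, FIELD form (no divisors). -/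
def CLFieldAtG (ℓ : ℕ) (A : ValuationSubring Qbar)
    (Ft : IntermediateField (IsLocalRing.ResidueField A) (LaurentSeries (IsLocalRing.ResidueField A))) :
    Prop :=
  ∀ (P Q : LaurentSeries A) (hP : coeffMap A.subtype P ∈ FbarG F₀)
    (hQ : coeffMap A.subtype Q ∈ FbarG F₀),
    coeffMap (IsLocalRing.residue A) P = coeffMap (IsLocalRing.residue A) Q →
    coeffMap (IsLocalRing.residue A) Q ≠ 0 →
    coeffMap (IsLocalRing.residue A) Q ∈ Ft →
  ∀ (m : ℕ), ¬ ℓ ∣ m →
    (∀ v : Place Qbar (FbarG F₀),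
      (m : ℤ) ∣ v.ord (⟨_, hP⟩ : FbarG F₀) -
        v.ord (⟨_, hQ⟩ : FbarG F₀)) →
    ∃ s : FbarG F₀,
      s ^ m * (⟨_, hQ⟩ : FbarG F₀) = (⟨_, hP⟩ : FbarG F₀)

variable {F₀} in
theorem clAtG_of_clFieldAtG {ℓ : ℕ} {A : ValuationSubring Qbar}
    {Ft : IntermediateField (IsLocalRing.ResidueField A) (LaurentSeries (IsLocalRing.ResidueField A))}
    (h : CLFieldAtG F₀ ℓ A Ft) : CLAtG F₀ ℓ A Ft := by
  intro P Q hP hQ hPQ hQ0 hQk m hm D hD
  have hm0 : m ≠ 0 := fun h0 => hm (h0 ▸ dvd_zero ℓ)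
  have hP0 : coeffMap (IsLocalRing.residue A) P ≠ 0 := hPQ ▸ hQ0
  have hPne := bar_ne_zeroG hP hP0
  have hQne := bar_ne_zeroG hQ hQ0
  have hsub : ∀ w : Place Qbar (FbarG F₀),
      w.ord ((⟨_, hP⟩ : FbarG F₀) / ⟨_, hQ⟩) =
        w.ord (⟨_, hP⟩ : FbarG F₀) -
          w.ord (⟨_, hQ⟩ : FbarG F₀) := by
    intro w
    rw [div_eq_mul_inv, w.ord_mul hPne (inv_ne_zero hQne), w.ord_inv]
    ring
  obtain ⟨s, hs⟩ := h P Q hP hQ hPQ hQ0 hQk m hm (fun v => ⟨D v, by rw [← hsub v, hD v]⟩)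
  have hs0 : s ≠ 0 := by
    rintro rfl
    rw [zero_pow hm0, zero_mul] at hs
    exact hPne hs.symm
  refine ⟨s, hs0, fun w => ?_⟩
  have h1 : (m : ℤ) * D w = (m : ℤ) * w.ord s := by
    rw [hD w, hsub w, ← hs, w.ord_mul (pow_ne_zero m hs0) hQne]
    have : w.ord (s ^ m) = (m : ℤ) * w.ord s := by
      rw [← zpow_natCast, w.ord_zpow]
    rw [this]
    ring
  exact mul_left_cancel₀ (by exact_mod_cast hm0) h1


end CLAt

/-- The generic contract `Iface.CLBarG` implies the FIELD form used here. -/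
theorem clFieldAtG_of_clBarG {F₀ : IntermediateField ℚ (LaurentSeries ℚ)} {ℓ : ℕ}
    {A : ValuationSubring Qbar}
    {Ft : IntermediateField (IsLocalRing.ResidueField A) (LaurentSeries (IsLocalRing.ResidueField A))}
    (h : CLBarG F₀ ℓ A) : CLFieldAtG F₀ ℓ A Ft :=
  fun P Q hP hQ hPQ hQ0 _ m hm hdvd => h P Q hP hQ hPQ (hPQ ▸ hQ0) m hm hdvd


/-! ### The main theorem -/

section Main

variable {F₀ : IntermediateField ℚ (LaurentSeries ℚ)}

/-- `ℚ̄·F₀` has at least one place (a pole of the generator). -/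
theorem nonempty_place_of_isGen {x : FbarG F₀} (hx : FF.IsGen Qbar x) :
    Nonempty (Place Qbar (FbarG F₀)) := by
  by_contra hempty
  rw [not_nonempty_iff] at hempty
  have h := FF.sum_ord_poles hx
  have h0 : (∑ᶠ (v : Place Qbar (FbarG F₀)) (_ : v.ord x < 0), -v.ord x) = 0 := by
    apply finsum_eq_zero_of_forall_eq_zero
    intro v
    exact (hempty.false v).elim
  rw [h0] at h
  have := hx.finite
  have hpos : 0 < Module.finrank (IntermediateField.adjoin Qbar {x}) (FbarG F₀) :=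
    Module.finrank_pos
  omega

/-- powers of integral elements -/
theorem pow_mem_barG {A : ValuationSubring Qbar} {y : LaurentSeries A}
    (hy : coeffMap A.subtype y ∈ FbarG F₀) (n : ℕ) : coeffMap A.subtype (y ^ n) ∈ FbarG F₀ := by
  rw [map_pow]; exact pow_mem hy n

theorem ord_bar_powG {A : ValuationSubring Qbar}
    (P : Place Qbar (FbarG F₀)) {y : LaurentSeries A}
    (hy : coeffMap A.subtype y ∈ FbarG F₀) (n : ℕ) :
    P.ord (⟨_, pow_mem_barG hy n⟩ : FbarG F₀) = n * P.ord (⟨_, hy⟩ : FbarG F₀) := by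
  have h : (⟨_, pow_mem_barG hy n⟩ : FbarG F₀) = (⟨_, hy⟩ : FbarG F₀) ^ (n : ℤ) := by
    rw [zpow_natCast]
    exact Subtype.ext (map_pow _ _ _)
  rw [h, P.ord_zpow]


/-- **(Φ3), reduction half, generic**: for an EXPLICIT place reduction map `r`,
`reductionPic0AlongG r hr hgen` is injective on the `m`-torsion of `Pic⁰(ℚ̄·F₀)`, `ℓ ∤ m`, given
the core lemma at `A`, a generator of `ℚ̄·F₀ / ℚ̄` and the lifting property `LiftRatioG`. -/
theorem red_injective_of_CLAtG {ℓ : ℕ} [Fact ℓ.Prime] {x : FbarG F₀} (hx : FF.IsGen Qbar x)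
    (A : ValuationSubring Qbar)
    {Ft : IntermediateField (IsLocalRing.ResidueField A) (LaurentSeries (IsLocalRing.ResidueField A))}
    (hlift : LiftRatioG A (IsLocalRing.residue A) F₀ Ft)
    (hCL : CLAtG F₀ ℓ A Ft)
    (r : Place Qbar (FbarG F₀) → Place (IsLocalRing.ResidueField A) Ft)
    (hr : IsPlaceReductionAlongG A (IsLocalRing.residue A) F₀ Ft r)
    (hgen : PrincipalGeneratedByIntegralG A (IsLocalRing.residue A) F₀ Ft)
    (m : ℕ) (hm : ¬ ℓ ∣ m) (z : Pic0 Qbar (FbarG F₀))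
    (hmz : m • z = 0) (hz : reductionPic0AlongG r hr hgen z = 0) :
    z = 0 := by
  classical
  have hdiv : HasPrincipalDivisors Qbar (FbarG F₀) := FFGenus.hasPrincipalDivisors hx
  have hdeg1 : ∀ v : Place Qbar (FbarG F₀), v.deg = 1 := fun v => FF.deg_eq_one hx v
  have hne : Nonempty (Place Qbar (FbarG F₀)) := nonempty_place_of_isGen hx
  -- `z = [D₀]`
  obtain ⟨⟨D₀, hD₀⟩, rfl⟩ := Pic0.mk_surjective z
  -- `m • D₀` is principal
  have hmD₀ : m • D₀ ∈ Divisor.principal (K := Qbar) (F := FbarG F₀) := by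
    have h1 : Pic0.mk (m • (⟨D₀, hD₀⟩ : Divisor.degZero (K := Qbar) (F := FbarG F₀))) = 0 := by
      rw [← hmz]; rfl
    have h2 := (QuotientAddGroup.eq_zero_iff _).mp h1
    rw [AddSubgroup.mem_addSubgroupOf] at h2
    simpa using h2
  -- `r_* D₀` is principal
  have hrD₀ : Finsupp.mapDomain r D₀ ∈
      Divisor.principal (K := IsLocalRing.ResidueField A)
        (F := Ft) := by
    rw [reductionPic0AlongG_mk] at hz
    have h2 := (QuotientAddGroup.eq_zero_iff _).mp hz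
    rw [AddSubgroup.mem_addSubgroupOf] at h2
    exact h2
  -- integral representation of `m • D₀`
  obtain ⟨Y₁, Y₂, hY₁, hY₂, hYk₁, hYk₂, hY0₁, hY0₂, hYord⟩ :=
    goodRepG_of_mem_closure (hgen hmD₀)
  -- `g~` with `div g~ = r_* D₀`, and its lift
  obtain ⟨g, hg0, hgord⟩ := hrD₀
  obtain ⟨G₁, G₂, hG₁, hG₂, hGk₁, hGk₂, hG0₁, hG0₂, hgG⟩ :=
    hlift (g : LaurentSeries (IsLocalRing.ResidueField A)) g.2 (fun h0 => hg0 (Subtype.ext h0))
  obtain ⟨DG₁, hDG₁, -⟩ := hdiv.exists_divisor _ (bar_ne_zeroG hG₁ hG0₁)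
  obtain ⟨DG₂, hDG₂, -⟩ := hdiv.exists_divisor _ (bar_ne_zeroG hG₂ hG0₂)
  -- the new divisor and functions
  set D : Divisor Qbar (FbarG F₀) := D₀ - (DG₁ - DG₂) with hD
  have hP : coeffMap A.subtype (Y₁ * G₂ ^ m) ∈ FbarG F₀ := by
    rw [map_mul]; exact mul_mem hY₁ (pow_mem_barG hG₂ m)
  have hQ : coeffMap A.subtype (Y₂ * G₁ ^ m) ∈ FbarG F₀ := by
    rw [map_mul]; exact mul_mem hY₂ (pow_mem_barG hG₁ m)
  have hPk : coeffMap (IsLocalRing.residue A) (Y₁ * G₂ ^ m) ∈
      Ft := by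
    rw [map_mul, map_pow]; exact mul_mem hYk₁ (pow_mem hGk₂ m)
  have hQk : coeffMap (IsLocalRing.residue A) (Y₂ * G₁ ^ m) ∈
      Ft := by
    rw [map_mul, map_pow]; exact mul_mem hYk₂ (pow_mem hGk₁ m)
  have hP0 : coeffMap (IsLocalRing.residue A) (Y₁ * G₂ ^ m) ≠ 0 := by
    rw [map_mul, map_pow]; exact mul_ne_zero hY0₁ (pow_ne_zero m hG0₂)
  have hQ0 : coeffMap (IsLocalRing.residue A) (Y₂ * G₁ ^ m) ≠ 0 := by
    rw [map_mul, map_pow]; exact mul_ne_zero hY0₂ (pow_ne_zero m hG0₁)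
  have hGm0₁ : coeffMap (IsLocalRing.residue A) (G₁ ^ m) ≠ 0 := by
    rw [map_pow]; exact pow_ne_zero m hG0₁
  have hGm0₂ : coeffMap (IsLocalRing.residue A) (G₂ ^ m) ≠ 0 := by
    rw [map_pow]; exact pow_ne_zero m hG0₂
  -- orders upstairs: `m·D = div P - div Q`
  have hDord : ∀ w : Place Qbar (FbarG F₀), (m : ℤ) * D w =
      w.ord (⟨_, hP⟩ : FbarG F₀) - w.ord (⟨_, hQ⟩ : FbarG F₀) := by
    intro w
    rw [ord_bar_mulG w hY₁ (pow_mem_barG hG₂ m) hP hY0₁ hGm0₂,
      ord_bar_mulG w hY₂ (pow_mem_barG hG₁ m) hQ hY0₂ hGm0₁,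
      ord_bar_powG w hG₂ m, ord_bar_powG w hG₁ m, hD, Finsupp.sub_apply, Finsupp.sub_apply,
      hDG₁ w, hDG₂ w]
    have := hYord w
    rw [Finsupp.smul_apply, nsmul_eq_mul] at this
    linarith
  -- divisors of `P`, `Q` upstairs and their push-forwards
  obtain ⟨DP, hDP, -⟩ := hdiv.exists_divisor _ (bar_ne_zeroG hP hP0)
  obtain ⟨DQ, hDQ, -⟩ := hdiv.exists_divisor _ (bar_ne_zeroG hQ hQ0)
  have hDPQ : DP - DQ = m • D := by
    ext w
    rw [Finsupp.sub_apply, Finsupp.smul_apply, nsmul_eq_mul, hDP w, hDQ w, hDord w]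
  have hrP := hr.2 _ hP hPk hP0 DP hDP
  have hrQ := hr.2 _ hQ hQk hQ0 DQ hDQ
  have hrG₁ := hr.2 _ hG₁ hGk₁ hG0₁ DG₁ hDG₁
  have hrG₂ := hr.2 _ hG₂ hGk₂ hG0₂ DG₂ hDG₂
  -- `g = G₁~/G₂~` in `F~`
  have hgF : g = (⟨_, hGk₁⟩ : Ft) /
      ⟨_, hGk₂⟩ := Subtype.ext hgG
  have hGk0₁ : (⟨_, hGk₁⟩ : Ft) ≠ 0 :=
    fun h0 => hG0₁ (congrArg Subtype.val h0)
  have hGk0₂ : (⟨_, hGk₂⟩ : Ft) ≠ 0 :=
    fun h0 => hG0₂ (congrArg Subtype.val h0)
  -- `r_* D = 0`
  have hrD : ∀ Q' : Place (IsLocalRing.ResidueField A)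
      (Ft),
      Finsupp.mapDomain r D Q' = 0 := by
    intro Q'
    rw [hD, Finsupp.mapDomain_sub, Finsupp.mapDomain_sub, Finsupp.sub_apply, Finsupp.sub_apply,
      hgord Q', hrG₁ Q', hrG₂ Q', hgF, div_eq_mul_inv, Q'.ord_mul hGk0₁ (inv_ne_zero hGk0₂),
      Q'.ord_inv]
    ring
  -- hence `P~`, `Q~` have the same orders everywhere
  have hordPQ : ∀ Q' : Place (IsLocalRing.ResidueField A)
      (Ft),
      Q'.ord (⟨_, hPk⟩ : Ft) =
        Q'.ord (⟨_, hQk⟩ : Ft) := by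
    intro Q'
    have h1 : Finsupp.mapDomain r (DP - DQ) Q' = 0 := by
      rw [hDPQ, Finsupp.mapDomain_smul, Finsupp.smul_apply, hrD Q', smul_zero]
    rw [Finsupp.mapDomain_sub, Finsupp.sub_apply, hrP Q', hrQ Q'] at h1
    linarith
  -- constant
  obtain ⟨c, hc⟩ := exists_const_of_ord_eqG IsLocalRing.residue_surjective hdiv hdeg1 hne hr
    (Y₁ * G₂ ^ m) (Y₂ * G₁ ^ m) hP hQ hPk hQk hQ0 hordPQ
  -- `c ≠ 0`
  have hc0 : (c : Qbar) ≠ 0 := by
    intro h0
    have : c = 0 := Subtype.ext h0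
    rw [this, map_zero, zero_mul, map_zero] at hc
    exact hP0 hc
  -- apply (CL) to `P` and `c Q`
  have hQ' : coeffMap A.subtype (HahnSeries.C c * (Y₂ * G₁ ^ m)) ∈ FbarG F₀ := by
    rw [map_mul, coeffMap_C]; exact mul_mem (C_mem_barG _) hQ
  have hQ'k : coeffMap (IsLocalRing.residue A) (HahnSeries.C c * (Y₂ * G₁ ^ m)) ∈
      Ft := by
    rw [← hc]; exact hPk
  have hQ'0 : coeffMap (IsLocalRing.residue A) (HahnSeries.C c * (Y₂ * G₁ ^ m)) ≠ 0 := by
    rw [← hc]; exact hP0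
  have hDprin : D ∈ Divisor.principal (K := Qbar) (F := FbarG F₀) := by
    refine hCL (Y₁ * G₂ ^ m) (HahnSeries.C c * (Y₂ * G₁ ^ m)) hP hQ' hc hQ'0 hQ'k m hm D ?_
    intro w
    have hQ'eq : (⟨_, hQ'⟩ : FbarG F₀) = algebraMap Qbar (FbarG F₀) (c : Qbar) * (⟨_, hQ⟩ : FbarG F₀) := by
      apply Subtype.ext
      show coeffMap A.subtype (HahnSeries.C c * (Y₂ * G₁ ^ m)) =
        algebraMap Qbar (LaurentSeries Qbar) (c : Qbar) * coeffMap A.subtype (Y₂ * G₁ ^ m)
      rw [map_mul, coeffMap_C, algebraMap_laurentSeries_eq_single, HahnSeries.C_apply]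
      rfl
    have hcF : algebraMap Qbar (FbarG F₀) (c : Qbar) ≠ 0 := by
      rw [Ne, map_eq_zero_iff _ (algebraMap Qbar (FbarG F₀)).injective]
      exact hc0
    rw [hDord w, div_eq_mul_inv, w.ord_mul (bar_ne_zeroG hP hP0)
      (inv_ne_zero (hQ'eq ▸ mul_ne_zero hcF (bar_ne_zeroG hQ hQ0))), w.ord_inv, hQ'eq,
      w.ord_mul hcF (bar_ne_zeroG hQ hQ0), ffp_ord_algebraMap]
    ring
  -- conclude
  have hD₀prin : D₀ ∈ Divisor.principal (K := Qbar) (F := FbarG F₀) := by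
    have h1 : D₀ = D + (DG₁ - DG₂) := by rw [hD]; abel
    rw [h1]
    refine AddSubgroup.add_mem _ hDprin (AddSubgroup.sub_mem _ ?_ ?_)
    · exact ⟨_, bar_ne_zeroG hG₁ hG0₁, hDG₁⟩
    · exact ⟨_, bar_ne_zeroG hG₂ hG0₂, hDG₂⟩
  show Pic0.mk (⟨D₀, hD₀⟩ : Divisor.degZero (K := Qbar) (F := FbarG F₀)) = 0
  rw [Pic0.mk, QuotientAddGroup.eq_zero_iff, AddSubgroup.mem_addSubgroupOf]
  exact hD₀prin

/-- The same from the generic contract `Iface.CLBarG ℓ F₀ A`. -/
theorem red_injective_of_CLBarG {ℓ : ℕ} [Fact ℓ.Prime] {x : FbarG F₀} (hx : FF.IsGen Qbar x)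
    (A : ValuationSubring Qbar)
    {Ft : IntermediateField (IsLocalRing.ResidueField A) (LaurentSeries (IsLocalRing.ResidueField A))}
    (hlift : LiftRatioG A (IsLocalRing.residue A) F₀ Ft)
    (hCL : CLBarG F₀ ℓ A)
    (r : Place Qbar (FbarG F₀) → Place (IsLocalRing.ResidueField A) Ft)
    (hr : IsPlaceReductionAlongG A (IsLocalRing.residue A) F₀ Ft r)
    (hgen : PrincipalGeneratedByIntegralG A (IsLocalRing.residue A) F₀ Ft)
    (m : ℕ) (hm : ¬ ℓ ∣ m) (z : Pic0 Qbar (FbarG F₀))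
    (hmz : m • z = 0) (hz : reductionPic0AlongG r hr hgen z = 0) :
    z = 0 :=
  red_injective_of_CLAtG hx A hlift (clAtG_of_clFieldAtG (clFieldAtG_of_clBarG hCL)) r hr hgen m hm z
    hmz hz

end Main

end Fermat.Agent.DS.G.RED.Top

end
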