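/-
DS programme (S48), GEO half, chapter G-RED (helper28), brick R5: WIRING of `(Φ3)`.

For a generator datum `D : GenData` (G-ESRED interface; `D.FQ` the rational function field,
`D.FC k` the special-fibre field) the chapter G-RED delivers:

* `liftRatioG_genData` : `LiftRatioG A π D.FQ (D.FC k)` for every valuation subring `A` of a field
  `L ⊇ ℚ` and every SURJECTIVE `π : A →+* k` (the generators have integer coefficients);
* `clBarG_of_modelStep` : `(CL)` over `ℚ̄` from the MODEL deliverable (DESC + NUM);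
* `phi3_of_clBar`, `phi3_of_modelStep`, `phi3_of_modelMain4` : **(Φ3)** — the reduction map
  `Pic⁰(ℚ̄·D.FQ) → Pic⁰(D.FC κ(A))` is injective on the torsion prime to `ℓ`, from
  `IsGen` (G-X0), the two reduction predicates (G-ESRED E02) and the two-chart models
  (`Num.ModelStepG` = helper77's `ModelMain4.ModelStep`, `modelStepG_iff_modelMain4 : Iff.rfl`).
  These are in the exact `inj`-shape used by `DS/G/ES/TOP/PhiCore` / GEO-FIN-TG.
-/
import Mathlib
import Fermat.Agent.DS.G.RED.Top
import Fermat.Agent.DS.G.RED.Desc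
import Fermat.Agent.DS.G.RED.Num
import Fermat.Agent.DS.G.RED.ModelMain4
import Fermat.Agent.DS.G.ES.RED.Iface

set_option autoImplicit false

open HahnSeries IntermediateField AlgebraicCurve ModularCurve

noncomputable section

namespace Fermat.Agent.DS.G.RED.Phi3

open Fermat.Agent.X0 Fermat.Agent.RED.Interface4
open Fermat.Agent.DS.G.RED.Defs Fermat.Agent.DS.G.RED.Iface Fermat.Agent.DS.G.RED.Num
open Fermat.Agent.DS.G.RED.Desc Fermat.Agent.DS.G.RED.Top
open Fermat.Agent.DS.G.ES.RED.Iface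

/-! ### `LiftRatioG` for a generator datum -/

section Lift

variable (D : GenData) {L : Type*} [Field L] [Algebra ℚ L] (A : ValuationSubring L)
variable {k : Type*} [Field k] (π : A →+* k)

/-- the generators as series with coefficients in `A`. -/
def gensA : D.gens → LaurentSeries A := fun g => coeffMap (Int.castRingHom A) (g : LaurentSeries ℤ)

theorem coeffMap_subtype_gensA (g : D.gens) :
    coeffMap A.subtype (gensA D A g) = coeffMap (Int.castRingHom L) (g : LaurentSeries ℤ) :=
  coeffMap_intCast_comp A.subtype _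

theorem coeffMap_pi_gensA (g : D.gens) :
    coeffMap π (gensA D A g) = coeffMap (Int.castRingHom k) (g : LaurentSeries ℤ) :=
  coeffMap_intCast_comp π _

theorem range_coeffMap_pi_gensA :
    (Set.range fun g : D.gens => coeffMap π (gensA D A g)) = D.gensC k := by
  ext y
  constructor
  · rintro ⟨g, rfl⟩
    exact ⟨g, g.2, (coeffMap_pi_gensA D A π g).symm⟩
  · rintro ⟨g, hg, rfl⟩
    exact ⟨⟨g, hg⟩, coeffMap_pi_gensA D A π ⟨g, hg⟩⟩

/-- **(AUX-lift) for a generator datum.** -/
theorem liftRatioG_genData (hπ : Function.Surjective π) : LiftRatioG A π D.FQ (D.FC k) := by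
  refine liftRatioG_of_generators hπ (gensA D A) (fun g => ?_) ?_
  · rw [coeffMap_subtype_gensA, D.laurentBaseChange_FQ_eq L]
    exact D.gen_mem_FC g.2
  · rw [range_coeffMap_pi_gensA]
    rfl

end Lift

/-! ### `(CL)` over `ℚ̄` and `(Φ3)` -/

section Main

variable {F₀ : IntermediateField ℚ (LaurentSeries ℚ)}

/-- helper77's `ModelMain4.ModelStep` is `Num.ModelStepG`. -/
theorem modelStepG_iff_modelMain4 (A : ValuationSubring Qbar) :
    ModelStepG F₀ A ↔ Fermat.Agent.DS.G.RED.ModelMain4.ModelStep F₀ A := Iff.rfl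

/-- helper77's `ModelMain4.NumStep` is `Iface.NumStepG`. -/
theorem numStepG_iff_modelMain4 (ℓ : ℕ) (A : ValuationSubring Qbar) :
    NumStepG F₀ ℓ A ↔ Fermat.Agent.DS.G.RED.ModelMain4.NumStep F₀ A ℓ := Iff.rfl

/-- **`(CL)` over `ℚ̄`** from NUM over the large number fields (DESC is unconditional). -/
theorem clBarG_of_numStep {x : FbarG F₀} (hx : FF.IsGen Qbar x) {ℓ : ℕ}
    {A : ValuationSubring Qbar} (hNum : NumStepG F₀ ℓ A) : CLBarG F₀ ℓ A :=
  clBarG_of_descStepGe (descStepGeG hx ℓ A) hNum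

/-- **`(CL)` over `ℚ̄`** from the MODEL deliverable. -/
theorem clBarG_of_modelStep {x : FbarG F₀} (hx : FF.IsGen Qbar x) {ℓ : ℕ} (hℓ : ℓ.Prime)
    {A : ValuationSubring Qbar} (hA : A.LiesOverPrime ℓ) (hModel : ModelStepG F₀ A) :
    CLBarG F₀ ℓ A :=
  clBarG_of_numStep hx (numStepG_of_model hℓ hA hModel)

variable (D : GenData)

/-- **(Φ3) from `(CL)` over `ℚ̄`**, for a generator datum. -/
theorem phi3_of_clBar {ℓ : ℕ} [Fact ℓ.Prime] {x : FbarG D.FQ} (hx : FF.IsGen Qbar x)
    (A : ValuationSubring Qbar) (hCL : CLBarG D.FQ ℓ A)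
    (r : Place Qbar (FbarG D.FQ) →
      Place (IsLocalRing.ResidueField A) (D.FC (IsLocalRing.ResidueField A)))
    (hr : IsPlaceReductionAlongG A (IsLocalRing.residue A) D.FQ
      (D.FC (IsLocalRing.ResidueField A)) r)
    (hgen : PrincipalGeneratedByIntegralG A (IsLocalRing.residue A) D.FQ
      (D.FC (IsLocalRing.ResidueField A)))
    (m : ℕ) (hm : ¬ ℓ ∣ m) (z : Pic0 Qbar (FbarG D.FQ)) (hmz : m • z = 0)
    (hz : reductionPic0AlongG r hr hgen z = 0) : z = 0 :=
  red_injective_of_CLBarG hx A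
    (liftRatioG_genData D A (IsLocalRing.residue A) IsLocalRing.residue_surjective)
    hCL r hr hgen m hm z hmz hz

/-- **(Φ3) from MODEL**, for a generator datum. -/
theorem phi3_of_modelStep {ℓ : ℕ} [Fact ℓ.Prime] {x : FbarG D.FQ} (hx : FF.IsGen Qbar x)
    (A : ValuationSubring Qbar) (hA : A.LiesOverPrime ℓ) (hModel : ModelStepG D.FQ A)
    (r : Place Qbar (FbarG D.FQ) →
      Place (IsLocalRing.ResidueField A) (D.FC (IsLocalRing.ResidueField A)))
    (hr : IsPlaceReductionAlongG A (IsLocalRing.residue A) D.FQ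
      (D.FC (IsLocalRing.ResidueField A)) r)
    (hgen : PrincipalGeneratedByIntegralG A (IsLocalRing.residue A) D.FQ
      (D.FC (IsLocalRing.ResidueField A)))
    (m : ℕ) (hm : ¬ ℓ ∣ m) (z : Pic0 Qbar (FbarG D.FQ)) (hmz : m • z = 0)
    (hz : reductionPic0AlongG r hr hgen z = 0) : z = 0 :=
  phi3_of_clBar D hx A (clBarG_of_modelStep hx Fact.out hA hModel) r hr hgen m hm z hmz hz

/-- **(Φ3) from helper77's MODEL twin** (`ModelMain4.ModelStep D.FQ A`). -/
theorem phi3_of_modelMain4 {ℓ : ℕ} [Fact ℓ.Prime] {x : FbarG D.FQ} (hx : FF.IsGen Qbar x)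
    (A : ValuationSubring Qbar) (hA : A.LiesOverPrime ℓ)
    (hModel : Fermat.Agent.DS.G.RED.ModelMain4.ModelStep D.FQ A)
    (r : Place Qbar (FbarG D.FQ) →
      Place (IsLocalRing.ResidueField A) (D.FC (IsLocalRing.ResidueField A)))
    (hr : IsPlaceReductionAlongG A (IsLocalRing.residue A) D.FQ
      (D.FC (IsLocalRing.ResidueField A)) r)
    (hgen : PrincipalGeneratedByIntegralG A (IsLocalRing.residue A) D.FQ
      (D.FC (IsLocalRing.ResidueField A)))
    (m : ℕ) (hm : ¬ ℓ ∣ m) (z : Pic0 Qbar (FbarG D.FQ)) (hmz : m • z = 0)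
    (hz : reductionPic0AlongG r hr hgen z = 0) : z = 0 :=
  phi3_of_modelStep D hx A hA hModel r hr hgen m hm z hmz hz

end Main

end Fermat.Agent.DS.G.RED.Phi3

end
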