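/-
DS programme (S48), GEO half, chapter G-RED (helper28), brick R6: `(Rgen)` bridge and the
final form of `(Φ3)` for a generator datum.

* `integralPrincipalDivisorsG_eq_FC` : helper55's unfolded set
  `GaussUnit25.integralPrincipalDivisorsFC D A` IS `Defs.integralPrincipalDivisorsG` (rfl);
* `principalGeneratedByIntegralG_of_gb2` : `(Rgen)` in the R0 form from `GB2Step D A`
  (G-ESRED E08, `GaussUnit25.principalGeneratedByIntegral`) and `IsGen`;
* `phi3_of_gb2` : **(Φ3)** with `hgen` discharged: inputs `IsGen`, `A` over `ℓ`, MODEL, (GB2), and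
  a place reduction `r`.
-/
import Mathlib
import Fermat.Agent.DS.G.RED.Phi3
import Fermat.Agent.DS.G.ES.RED.GaussUnit25

set_option autoImplicit false

open HahnSeries IntermediateField AlgebraicCurve ModularCurve

noncomputable section

namespace Fermat.Agent.DS.G.RED.Rgen

open Fermat.Agent.X0 Fermat.Agent.RED.Interface4
open Fermat.Agent.DS.G.RED.Defs Fermat.Agent.DS.G.RED.Iface Fermat.Agent.DS.G.RED.Num
open Fermat.Agent.DS.G.ES.RED.Iface Fermat.Agent.DS.G.ES.RED.GaussUnit25

variable (D : GenData) (A : ValuationSubring Qbar)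

/-- helper55's unfolded set is the R0 set. -/
theorem integralPrincipalDivisorsG_eq_FC :
    integralPrincipalDivisorsG A (IsLocalRing.residue A) D.FQ
        (D.FC (IsLocalRing.ResidueField A)) =
      integralPrincipalDivisorsFC D A := rfl

/-- **(Rgen)** in the R0 form, from (GB2) at all large number fields. -/
theorem principalGeneratedByIntegralG_of_gb2 (ℓ : ℕ) [Fact ℓ.Prime] (hA : A.LiesOverPrime ℓ)
    (hpd : HasPrincipalDivisors Qbar (FbarG D.FQ)) (hGB2 : GB2Step D A) :
    PrincipalGeneratedByIntegralG A (IsLocalRing.residue A) D.FQ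
      (D.FC (IsLocalRing.ResidueField A)) :=
  principalGeneratedByIntegral D A ℓ hA hpd hGB2

/-- the same with `HasPrincipalDivisors` from a separating generator. -/
theorem principalGeneratedByIntegralG_of_isGen (ℓ : ℕ) [Fact ℓ.Prime] (hA : A.LiesOverPrime ℓ)
    {x : FbarG D.FQ} (hx : FF.IsGen Qbar x) (hGB2 : GB2Step D A) :
    PrincipalGeneratedByIntegralG A (IsLocalRing.residue A) D.FQ
      (D.FC (IsLocalRing.ResidueField A)) :=
  principalGeneratedByIntegralG_of_gb2 D A ℓ hA (FFGenus.hasPrincipalDivisors hx) hGB2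

/-- **(Φ3), final form for a generator datum**: `IsGen` + MODEL + (GB2) + a place reduction. -/
theorem phi3_of_gb2 {ℓ : ℕ} [Fact ℓ.Prime] {x : FbarG D.FQ} (hx : FF.IsGen Qbar x)
    (hA : A.LiesOverPrime ℓ) (hModel : ModelStepG D.FQ A) (hGB2 : GB2Step D A)
    (r : Place Qbar (FbarG D.FQ) →
      Place (IsLocalRing.ResidueField A) (D.FC (IsLocalRing.ResidueField A)))
    (hr : IsPlaceReductionAlongG A (IsLocalRing.residue A) D.FQ
      (D.FC (IsLocalRing.ResidueField A)) r)
    (m : ℕ) (hm : ¬ ℓ ∣ m) (z : Pic0 Qbar (FbarG D.FQ)) (hmz : m • z = 0)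
    (hz : reductionPic0AlongG r hr
      (principalGeneratedByIntegralG_of_isGen D A ℓ hA hx hGB2) z = 0) : z = 0 :=
  Fermat.Agent.DS.G.RED.Phi3.phi3_of_modelStep D hx A hA hModel r hr _ m hm z hmz hz

end Fermat.Agent.DS.G.RED.Rgen

end
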