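/-
DS programme (S48), GEO half, chapter G-RED (helper28), brick R2.

**Chapter DESC of Program H, generic in the function field** `F₀ ⊂ ℚ((q))`:

  `descStepGeG (hgen : FF.IsGen ℚ̄ x) ℓ A : DescStepGeG F₀ ℓ A`

(`(CL)` over every number field `K ⊇ K₀` implies `(CL)` over `ℚ̄`), for every `F₀` such that
`ℚ̄·F₀ / ℚ̄` is a function field in one variable with a separating generator `x`
(`X0.FF.IsGen`; the ONLY input about `F₀`).  Verbatim copy of `RED/DESC/PlaceExtend27` (section
`Concrete`) and `RED/DESC/DescMain27` with `modularFunctionFieldFull M` replaced by `F₀` and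
`FbarFacts20.isGen_j M` replaced by the hypothesis `hgen`.
-/
import Mathlib
import Fermat.Agent.DS.G.RED.Iface
import Fermat.Agent.RED.DESC.DescMain27
import Fermat.Agent.X0.FFGenus

set_option autoImplicit false
set_option linter.unusedSectionVars false

namespace Fermat.Agent.DS.G.RED.Desc

open AlgebraicCurve ModularCurve HahnSeries
open Fermat.Agent.X0 Fermat.Agent.RED.Interface4 Fermat.Agent.RED.InterfaceGe4
open Fermat.Agent.RED.DESC Fermat.Agent.DS.G.RED.Iface

noncomputable section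

variable (F₀ : IntermediateField ℚ (LaurentSeries ℚ))

section Concrete

variable (K : IntermediateField ℚ Qbar)

/-- Coefficientwise base change `K·F₀ → ℚ̄·F₀`. -/
def baseChangeHomG : FKG F₀ K →+* FbarG F₀ :=
  RingHom.codRestrict ((coeffMap (algebraMap K Qbar)).comp (FKG F₀ K).val.toRingHom) (FbarG F₀)
    (fun f => CoeffDescent1.coeffMap_mem_laurentBaseChange_of_algHom (algebraMap K Qbar) F₀ f.2)

@[simp] theorem coe_baseChangeHomG (f : FKG F₀ K) :
    ((baseChangeHomG F₀ K f : FbarG F₀) : LaurentSeries Qbar) =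
      coeffMap (algebraMap K Qbar) (f : LaurentSeries K) := rfl

theorem baseChangeHomG_algebraMap (c : K) :
    baseChangeHomG F₀ K (algebraMap K (FKG F₀ K) c) = algebraMap Qbar (FbarG F₀) (c : Qbar) := by
  apply Subtype.ext
  rw [coe_baseChangeHomG]
  exact CoeffDescent1.coeffMap_algebraMap_of_ringHom (algebraMap K Qbar) c

theorem baseChangeHomG_injective : Function.Injective (baseChangeHomG F₀ K) :=
  (baseChangeHomG F₀ K).injective

variable {F₀}

/-- **(EXT).**  Every place of `K·F₀ / K` extends to a place of `ℚ̄·F₀ / ℚ̄`. -/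
theorem exists_place_aboveG {x : FbarG F₀} (hgen : FF.IsGen Qbar x) (w : Place K (FKG F₀ K)) :
    ∃ (v : Place Qbar (FbarG F₀)) (e : ℕ), 0 < e ∧
      ∀ f : FKG F₀ K, v.ord (baseChangeHomG F₀ K f) = (e : ℤ) * w.ord f := by
  have h1 := PlaceExtend27.isAlgebraic_Qbar_over K
  exact PlaceExtend27.exists_place_above_abstract (baseChangeHomG F₀ K)
    (baseChangeHomG_algebraMap F₀ K) hgen w

end Concrete

/-- (C1) A finite family of elements of `ℚ̄·F₀` descends to a common number field. -/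
theorem exists_common_descentG (K₀ : IntermediateField ℚ Qbar) [FiniteDimensional ℚ K₀]
    (T : Finset (LaurentSeries Qbar)) (hT : ∀ x ∈ T, x ∈ FbarG F₀) :
    ∃ K : IntermediateField ℚ Qbar, K₀ ≤ K ∧ FiniteDimensional ℚ K ∧
      ∀ x ∈ T, ∃ x' : LaurentSeries K, x' ∈ FKG F₀ K ∧ coeffMap (algebraMap K Qbar) x' = x := by
  classical
  have h0 : Algebra.IsAlgebraic ℚ Qbar := NumberFieldDVR27.isAlgebraic_Qbar
  induction T using Finset.induction_on with
  | empty => exact ⟨K₀, le_rfl, inferInstance, fun x hx => absurd hx (Finset.notMem_empty x)⟩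
  | insert a T _ ih =>
    obtain ⟨K, hK₀, hfin, hK⟩ := ih (fun x hx => hT x (Finset.mem_insert_of_mem hx))
    have := hfin
    obtain ⟨K', hKK', hfin', a', ha', haa'⟩ :=
      CoeffDescent1.exists_finite_descent (F₀ := F₀) K
        (hT a (Finset.mem_insert_self a T))
    refine ⟨K', hK₀.trans hKK', hfin', ?_⟩
    intro x hx
    rcases Finset.mem_insert.mp hx with rfl | hx
    · exact ⟨a', ha', haa'⟩
    · obtain ⟨x', hx', hxx'⟩ := hK x hx
      obtain ⟨x'', hx'', h''⟩ := CoeffDescent1.exists_lift_of_le hKK' hx'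
      exact ⟨x'', hx'', h''.trans hxx'⟩

variable {F₀}

/-- **Chapter DESC, generic.**  `(CL)` over all number fields `K ⊇ K₀` implies `(CL)` over `ℚ̄`. -/
theorem descStepGeG {x : FbarG F₀} (hgen : FF.IsGen Qbar x) (ℓ : ℕ)
    (A : ValuationSubring Qbar) : DescStepGeG F₀ ℓ A := by
  classical
  intro K₀ hK₀ hnum P Q hP hQ hres hne m hm hord
  have := hK₀
  have hdiv : HasPrincipalDivisors Qbar (FbarG F₀) := FFGenus.hasPrincipalDivisors hgen
  have hm0 : 0 < m := Nat.pos_of_ne_zero (fun h => hm (h ▸ dvd_zero ℓ))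
  have hP0 : P ≠ 0 := by
    rintro rfl
    exact hne (map_zero _)
  have hQ0 : Q ≠ 0 := by
    rintro rfl
    exact hne (by rw [hres, map_zero])
  have hsubinj : Function.Injective (coeffMap A.subtype) :=
    CoeffDescent1.coeffMap_injective_of_injective _ Subtype.val_injective
  have hfP0 : (⟨coeffMap A.subtype P, hP⟩ : FbarG F₀) ≠ 0 := by
    intro h
    apply hP0
    apply hsubinj
    have h1 := congrArg Subtype.val h
    rw [map_zero]
    exact h1
  have hfQ0 : (⟨coeffMap A.subtype Q, hQ⟩ : FbarG F₀) ≠ 0 := by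
    intro h
    apply hQ0
    apply hsubinj
    have h1 := congrArg Subtype.val h
    rw [map_zero]
    exact h1
  -- the finite set of places where the orders differ
  obtain ⟨DP, hDP, -⟩ := hdiv.exists_divisor _ hfP0
  obtain ⟨DQ, hDQ, -⟩ := hdiv.exists_divisor _ hfQ0
  let S : Finset (Place Qbar (FbarG F₀)) := DP.support ∪ DQ.support
  have hS : ∀ v, v ∉ S → v.ord (⟨coeffMap A.subtype P, hP⟩ : FbarG F₀) =
      v.ord (⟨coeffMap A.subtype Q, hQ⟩ : FbarG F₀) := by
    intro v hv
    simp only [S, Finset.mem_union, Finsupp.mem_support_iff, not_or, not_not] at hv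
    rw [← hDP v, ← hDQ v, hv.1, hv.2]
  -- uniformisers
  let τ : Place Qbar (FbarG F₀) → FbarG F₀ := fun v =>
    (((FF.ffp_exists_irreducible v).choose : v.toValuationSubring) : FbarG F₀)
  have hτ : ∀ v : Place Qbar (FbarG F₀), v.ord (τ v) = 1 := by
    intro v
    exact v.ord_coe_irreducible (FF.ffp_exists_irreducible v).choose_spec
  let T : Finset (LaurentSeries Qbar) :=
    insert (coeffMap A.subtype P) (insert (coeffMap A.subtype Q)
      (S.image (fun v => ((τ v : FbarG F₀) : LaurentSeries Qbar))))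
  have hT : ∀ x ∈ T, x ∈ FbarG F₀ := by
    intro x hx
    simp only [T, Finset.mem_insert, Finset.mem_image] at hx
    rcases hx with rfl | rfl | ⟨v, -, rfl⟩
    · exact hP
    · exact hQ
    · exact (τ v).2
  obtain ⟨K, hK₀K, hfin, hK⟩ := exists_common_descentG F₀ K₀ T hT
  have := hfin
  obtain ⟨xP, hxP, hxP'⟩ := hK (coeffMap A.subtype P) (by simp [T])
  obtain ⟨xQ, hxQ, hxQ'⟩ := hK (coeffMap A.subtype Q) (by simp [T])
  obtain ⟨P', hP'1, hP'2⟩ := DescMain27.exists_lift_AK A K P xP hxP'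
  obtain ⟨Q', hQ'1, hQ'2⟩ := DescMain27.exists_lift_AK A K Q xQ hxQ'
  have hP'mem : coeffMap (AK A K).subtype P' ∈ FKG F₀ K := hP'1 ▸ hxP
  have hQ'mem : coeffMap (AK A K).subtype Q' ∈ FKG F₀ K := hQ'1 ▸ hxQ
  have hresK : coeffMap (IsLocalRing.residue (AK A K)) P' =
      coeffMap (IsLocalRing.residue (AK A K)) Q' := by
    apply DescMain27.residue_eq_of_incl
    rw [hP'2, hQ'2]
    exact hres
  have hneK : coeffMap (IsLocalRing.residue (AK A K)) P' ≠ 0 := by
    apply DescMain27.residue_ne_zero_of_incl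
    rw [hP'2]
    exact hne
  -- base change of the two functions
  have hbP : baseChangeHomG F₀ K ⟨_, hP'mem⟩ = (⟨coeffMap A.subtype P, hP⟩ : FbarG F₀) := by
    apply Subtype.ext
    rw [coe_baseChangeHomG]
    show coeffMap (algebraMap K Qbar) (coeffMap (AK A K).subtype P') = coeffMap A.subtype P
    rw [hP'1]
    exact hxP'
  have hbQ : baseChangeHomG F₀ K ⟨_, hQ'mem⟩ = (⟨coeffMap A.subtype Q, hQ⟩ : FbarG F₀) := by
    apply Subtype.ext
    rw [coe_baseChangeHomG]
    show coeffMap (algebraMap K Qbar) (coeffMap (AK A K).subtype Q') = coeffMap A.subtype Q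
    rw [hQ'1]
    exact hxQ'
  -- the hypothesis on the places of `K·F₀`
  have hplaces : ∀ w : Place K (FKG F₀ K),
      (m : ℤ) ∣ w.ord (⟨coeffMap (AK A K).subtype P', hP'mem⟩ : FKG F₀ K) -
        w.ord (⟨coeffMap (AK A K).subtype Q', hQ'mem⟩ : FKG F₀ K) := by
    intro w
    obtain ⟨v, e, he, hve⟩ := exists_place_aboveG K hgen w
    have h1 := hve ⟨_, hP'mem⟩
    have h2 := hve ⟨_, hQ'mem⟩
    rw [hbP] at h1
    rw [hbQ] at h2
    by_cases hv : v ∈ S
    · obtain ⟨xτ, hxτ, hxτ'⟩ := hK ((τ v : FbarG F₀) : LaurentSeries Qbar) (by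
        simp only [T, Finset.mem_insert, Finset.mem_image]
        exact Or.inr (Or.inr ⟨v, hv, rfl⟩))
      have h3 := hve ⟨xτ, hxτ⟩
      have h4 : baseChangeHomG F₀ K ⟨xτ, hxτ⟩ = τ v := Subtype.ext hxτ'
      rw [h4, hτ v] at h3
      have he1 : (e : ℤ) = 1 :=
        Int.eq_one_of_mul_eq_one_right (by positivity) h3.symm
      have h5 := hord v
      rw [h1, h2, he1, one_mul, one_mul] at h5
      exact h5
    · have h3 := hS v hv
      rw [h1, h2] at h3
      have he' : (e : ℤ) ≠ 0 := by exact_mod_cast he.ne'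
      have h4 := mul_left_cancel₀ he' h3
      rw [h4, sub_self]
      exact dvd_zero _
  obtain ⟨c, s, hc, hs⟩ := hnum K hfin hK₀K P' Q' hP'mem hQ'mem hresK hneK m hm hplaces
  -- an `m`-th root of the constant
  obtain ⟨d, hd⟩ := IsAlgClosed.exists_pow_nat_eq ((c : K) : Qbar) hm0
  have hcQ : ((c : K) : Qbar) ≠ 0 := by
    intro h
    apply hc
    exact Subtype.ext h
  have hd0 : d ≠ 0 := by
    rintro rfl
    rw [zero_pow hm0.ne'] at hd
    exact hcQ hd.symm
  refine ⟨(algebraMap Qbar (FbarG F₀) d)⁻¹ * baseChangeHomG F₀ K s, ?_⟩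
  have h5 := congrArg (baseChangeHomG F₀ K) hs
  rw [map_mul, map_pow, hbQ, Algebra.smul_def, map_mul, baseChangeHomG_algebraMap,
    hbP] at h5
  rw [mul_pow, inv_pow, ← map_pow, hd, mul_assoc, h5, ← mul_assoc, inv_mul_cancel₀, one_mul]
  exact (map_ne_zero _).mpr hcQ

end

end Fermat.Agent.DS.G.RED.Desc
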