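/-
DS/G (generic twins), chapter RED, helper77: **MODEL for an abstract level, assembled.**

For `(n, e) = (4, 8)` or `(9, 3)` (`hb : BaseHyp n e`), a level `L : LevelData` with `F_n ≤ L.F₀`,
arithmetic realisation `(D, C)` with `C.Distinct`, cusp expansions of the Hauptmodul
(`CuspExp n e L C cv ∧ CuspSeparated n cv`; chapter G-RED-BC), a place `A` of `ℚ̄` over `ℓ ∤ n`,
the Igusa inputs `GaussInputs L.F₀ A` and the cusp families (`HasCuspFamily`, chapter G-RED-C:
helper80's `CuspFamilyAbs80` + tame/fibre/rank twins):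

  `modelStep_of_level : ModelMain4.ModelStep L.F₀ A`   (two-chart smooth models of `K·L.F₀` over
  `A ∩ K` for all large number fields `K`),   `numStep_of_level : ModelMain4.NumStep L.F₀ A ℓ`.

Pieces: BASE twins (helper89: `Main12.baseExports`), PUR twins (helper29:
`OffTarget.offTarget_of_gaussInputs`), CUSP twins (`CuspHoriz4.hH_over/hH_inf`,
`CuspMain77.overTarget_of_hunr/infTarget_of_hunr`), MODEL twins (`ModelMain4.modelStep_of_targets`).
-/
import Mathlib
import Fermat.Agent.DS.G.RED.ModelMain4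
import Fermat.Agent.DS.G.RED.BASE.Main12
import Fermat.Agent.DS.G.RED.BASE.MainCusp12
import Fermat.Agent.DS.G.PUR.OffTarget
import Fermat.Agent.DS.G.PUR.PlaceInputsOf
import Fermat.Agent.DS.G.RED.CUSP.CuspHoriz4
import Fermat.Agent.DS.G.RED.CUSP.CuspMain77

set_option autoImplicit false
set_option linter.unusedSectionVars false

open HahnSeries ModularCurve IntermediateField
open scoped MatrixGroups

noncomputable section

namespace Fermat.Agent.DS.G.RED.TopAsm77

open Fermat.Agent.RED.Interface4 (Qbar AK)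
open Fermat.Agent.X0 Fermat.Agent.DS.G.Level
open Fermat.Agent.RED.BASE.Hauptmodul12 (BaseHyp)
open Fermat.Agent.RED.BASE.Interface12 (CuspSeparated)
open Fermat.Agent.RED.ModelTargets4 (cuspSet JTarget)
open Fermat.Agent.RED.CUSP.CuspIface23
open Fermat.Agent.DS.G.RED.BASE.Interface12
open Fermat.Agent.DS.G.RED.ModelTargets4 Fermat.Agent.DS.G.RED.ModelMain4

variable {n e : ℕ} [NeZero n] {A : ValuationSubring Qbar}

/-- **MODEL for the level `L`.** -/
theorem modelStep_of_level (hb : BaseHyp n e) (L : LevelData) (D : RealizeDataK L)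
    (C : CuspDataK L D) (hC : C.Distinct) (hle : modularFunctionFieldFull n ≤ L.F₀)
    (cv : SL(2, ℤ) → Option Kbar) (hcv : CuspExp n e L C cv ∧ CuspSeparated n cv)
    {ℓ : ℕ} [Fact ℓ.Prime] (hℓn : ¬ ℓ ∣ n) (hA : A.LiesOverPrime ℓ)
    (hG : GaussInputs L.F₀ A)
    (hfamS : EventuallyT L.F₀ n e A fun K ϖ t =>
      ∀ c ∈ cuspSet A K cv,
        HasCuspFamily (AK A K) (FK L.F₀ K) t c (Module.finrank ↥(↥K)⟮t⟯ ↥(FK L.F₀ K)))
    (hfamN : EventuallyT L.F₀ n e A fun K ϖ t =>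
      HasCuspFamily (AK A K) (FK L.F₀ K) t⁻¹ 0 (Module.finrank ↥(↥K)⟮t⁻¹⟯ ↥(FK L.F₀ K))) :
    ModelStep L.F₀ A := by
  have hB := Fermat.Agent.DS.G.RED.BASE.Main12.baseExports hb L D C hC hle
  have hI := Fermat.Agent.DS.G.PUR.PlaceInputsOf.placeInputs C hC
  have hT : TTarget L.F₀ n e := tTarget hB.mem
  have hJ : JTarget n e := Fermat.Agent.RED.ModelFinal4.jTarget hB.genBase
  have hoff : OffTarget L.F₀ n e A cv :=
    Fermat.Agent.DS.G.PUR.OffTarget.offTarget_of_gaussInputs hI cv hB.isGen hB.unbranched hcv.1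
      hℓn hA hG hT hJ
  have hover : OverTarget L.F₀ n e A cv :=
    Fermat.Agent.DS.G.RED.CUSP.CuspMain77.overTarget_of_hunr hA hG hT hJ cv hfamS
      (Fermat.Agent.DS.G.RED.CUSP.CuspHoriz4.hH_over hI cv hB.isGen hB.unbranched hcv.1 hcv.2
        hℓn hA)
  have hinf : InfTarget L.F₀ n e A :=
    Fermat.Agent.DS.G.RED.CUSP.CuspMain77.infTarget_of_hunr hA hG hT hJ hfamN
      (Fermat.Agent.DS.G.RED.CUSP.CuspHoriz4.hH_inf hI cv hB.isGen hB.unbranched hcv.1 hℓn hA)
  exact modelStep_of_targets hA hG cv hT hJ hoff hover hinf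

/-- **NUM for the level `L`** (`(CL)` over all large number fields). -/
theorem numStep_of_level (hb : BaseHyp n e) (L : LevelData) (D : RealizeDataK L)
    (C : CuspDataK L D) (hC : C.Distinct) (hle : modularFunctionFieldFull n ≤ L.F₀)
    (cv : SL(2, ℤ) → Option Kbar) (hcv : CuspExp n e L C cv ∧ CuspSeparated n cv)
    {ℓ : ℕ} [Fact ℓ.Prime] (hℓn : ¬ ℓ ∣ n) (hA : A.LiesOverPrime ℓ)
    (hG : GaussInputs L.F₀ A)
    (hfamS : EventuallyT L.F₀ n e A fun K ϖ t =>
      ∀ c ∈ cuspSet A K cv,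
        HasCuspFamily (AK A K) (FK L.F₀ K) t c (Module.finrank ↥(↥K)⟮t⟯ ↥(FK L.F₀ K)))
    (hfamN : EventuallyT L.F₀ n e A fun K ϖ t =>
      HasCuspFamily (AK A K) (FK L.F₀ K) t⁻¹ 0 (Module.finrank ↥(↥K)⟮t⁻¹⟯ ↥(FK L.F₀ K))) :
    NumStep L.F₀ A ℓ :=
  numStep_of_model L.F₀ A Fact.out hA
    (modelStep_of_level hb L D C hC hle cv hcv hℓn hA hG hfamS hfamN)

end Fermat.Agent.DS.G.RED.TopAsm77
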