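/-
Programme DS (S48), chapter G-RED, TOP ASSEMBLY of (MODEL) at the level `L1 M = X₁(M)/±`
(helper19, assigned by helper71 msg 4692).

  `modelStep_L1 : ModelMain4.ModelStep (L1 M).F₀ A`      (`4 ∣ M` or `9 ∣ M`, `p ∤ M`, `A | p`)

via `ModelMain4.modelStep_of_smooth` with the Hauptmodul of `X₀(n)`, `(n, e) = (4, 8)` resp. `(9, 3)`.

DISCHARGED here from landed files:
* `hmem`  : `tq ℚbar n e ∈ ℚbar·F₀(L1 M)` (`ModelMain4.tq_mem_of_le` + `CuspExp1.full_le_L1`);
* `hgen`  : `TGenBase n e` (`Hauptmodul12.tGenBase'`), hence `TTarget`, `JTarget`;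
* `CuspExp n e (L1 M) (C1 M) (cvT n e M)` (`CuspExp1.cuspExp_four1 / cuspExp_nine1`);
* `PlaceInputs (C1 M)` (`PlaceInputsOf.placeInputs` + `Model1.distinct1`);
* `TIsGen n e (L1 M)` (`tIsGen_L1`: `t` is transcendental and `j` is a generator);
* `hoff`  : `OffTarget` (`OffTarget.offTarget_of_gaussInputs`).

KEPT as the fields of `ModelHyps n e M A` — exactly the inputs which are not landed yet, in the
shapes of their owners:
* `unbranched : Unbranched n e (L1 M)`   (BASE twins, row 382 — now landed: `unbranched_L1`,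
  `modelHyps_of`, `modelStep_L1_of_targets` below need only the next three);
* `gauss : GaussInputs (L1 M).F₀ A`                                     (IGUSA instance, row 390);
* `overT : OverTarget (L1 M).F₀ n e A (cvT n e M)`, `infT : InfTarget (L1 M).F₀ n e A`
                                                                        (CUSP top, row 385).
-/
import Fermat.Agent.DS.G.RED.ModelMain4
import Fermat.Agent.DS.G.PUR.OffTarget
import Fermat.Agent.DS.G.PUR.PlaceInputsOf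
import Fermat.Agent.DS.X1.CuspExp1
import Fermat.Agent.RED.BASE.Hauptmodul12
import Fermat.Agent.RED.BASE.TqTranscendental19
import Fermat.Agent.DS.G.RED.BASE.Main12

set_option autoImplicit false
set_option linter.unusedSectionVars false

open ModularCurve
open scoped MatrixGroups

noncomputable section

namespace Fermat.Agent.DS.G.RED.ModelL1

open Fermat.Agent.X0
open Fermat.Agent.RED.Interface4 (Qbar)
open Fermat.Agent.RED.BASE.Hauptmodul12 (BaseHyp baseHyp_four baseHyp_nine tGenBase')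
open Fermat.Agent.RED.BASE.CuspExpMain11 (cvT)
open Fermat.Agent.RED.BASE.Interface12 (tK)
open Fermat.Agent.DS.G.Level Fermat.Agent.DS.X1.Level1 Fermat.Agent.DS.X1.Model1
open Fermat.Agent.DS.X1.CuspExp1
open Fermat.Agent.DS.G.RED.BASE.Interface12
open Fermat.Agent.DS.G.RED.ModelTargets4 Fermat.Agent.DS.G.RED.ModelMain4

/-- The inputs of (MODEL) at the level `L1 M` which are produced by the chapters BASE (twins),
IGUSA (instance) and CUSP (top), for the Hauptmodul `t = tq n e` of `X₀(n)`. -/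
structure ModelHyps (n e : ℕ) [NeZero n] (M : ℕ) [NeZero M] (A : ValuationSubring Qbar) :
    Prop where
  /-- (B6) `t` is unbranched away from the cusps. -/
  unbranched : Unbranched n e (L1 M)
  /-- Gauss bridge, degree, (DEG)+(IRR) for all large number fields. -/
  gauss : GaussInputs (L1 M).F₀ A
  /-- (LOC) over the finite cusp values. -/
  overT : OverTarget (L1 M).F₀ n e A (cvT n e M)
  /-- (LOC) at infinity. -/
  infT : InfTarget (L1 M).F₀ n e A

variable (M : ℕ) [NeZero M] {p : ℕ} [Fact p.Prime] (A : ValuationSubring Qbar)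

/-- `PlaceInputs` for the unconditional model `(D1 M, C1 M)` of `X₁(M)/±`. -/
theorem placeInputs1 : Fermat.Agent.DS.G.PUR.HorizUnram20.PlaceInputs (C1 M) :=
  Fermat.Agent.DS.G.PUR.PlaceInputsOf.placeInputs (C1 M) (distinct1 M)

/-- The Hauptmodul of `X₀(n)` lies in `ℚbar·F₀(L1 M)`, `n ∣ M`. -/
theorem tq_mem_L1 {n e : ℕ} [NeZero n] (hb : BaseHyp n e) (hnM : n ∣ M) :
    Fermat.Agent.RED.BASE.EtaQuot12.tq Qbar n e ∈ laurentBaseChange Qbar (L1 M).F₀ :=
  tq_mem_of_le hb hnM (full_le_L1 M)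

/-- (B3') at `L1 M`: the Hauptmodul is a transcendental generator (`ℚbar·F₀(L1 M)` is finite over
`ℚbar(t)`), as soon as it lies in the field. -/
theorem tIsGen_L1 {n e : ℕ} [NeZero n] (h : TMem n e (L1 M)) : TIsGen n e (L1 M) := by
  refine ⟨h, (isGen_jF1 M).of_transcendental ?_⟩
  have h1 : Transcendental Kbar (tK n e) :=
    Fermat.Agent.RED.BASE.TqTranscendental19.transcendental_tq Kbar n e
  intro halg
  refine h1 ?_
  have h2 := halg.algHom (laurentBaseChange Kbar (L1 M).F₀).val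
  exact h2

/-- **(MODEL) at `L1 M` from the remaining inputs**, general Hauptmodul. -/
theorem modelStep_of_hyps {n e : ℕ} [NeZero n] (hb : BaseHyp n e) (hnM : n ∣ M)
    (hpM : ¬ p ∣ M) (hA : A.LiesOverPrime p)
    (hC : CuspExp n e (L1 M) (C1 M) (cvT n e M)) (H : ModelHyps n e M A) :
    ModelStep (L1 M).F₀ A := by
  have hmem := tq_mem_L1 M hb hnM
  have hgen := tGenBase' hb
  have hpn : ¬ p ∣ n := fun h => hpM (dvd_trans h hnM)
  have hoff : OffTarget (L1 M).F₀ n e A (cvT n e M) :=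
    Fermat.Agent.DS.G.PUR.OffTarget.offTarget_of_gaussInputs (placeInputs1 M) (cvT n e M)
      (tIsGen_L1 M hmem) H.unbranched hC hpn hA H.gauss (tTarget hmem)
      (Fermat.Agent.RED.ModelFinal4.jTarget hgen)
  exact modelStep_of_smooth hmem hgen hA H.gauss (cvT n e M) hoff H.overT H.infT

/-- **(MODEL) at `L1 M`, `4 ∣ M`.** -/
theorem modelStep_L1_four (hM : 4 ∣ M) (hpM : ¬ p ∣ M) (hA : A.LiesOverPrime p)
    (H : ModelHyps 4 8 M A) : ModelStep (L1 M).F₀ A :=
  modelStep_of_hyps M A baseHyp_four hM hpM hA (cuspExp_four1 M hM).1 H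

/-- **(MODEL) at `L1 M`, `9 ∣ M`.** -/
theorem modelStep_L1_nine (hM : 9 ∣ M) (hpM : ¬ p ∣ M) (hA : A.LiesOverPrime p)
    (H : ModelHyps 9 3 M A) : ModelStep (L1 M).F₀ A :=
  modelStep_of_hyps M A baseHyp_nine hM hpM hA (cuspExp_nine1 M hM).1 H

/-- The hypothesis of `modelStep_L1`: the inputs for `(4, 8)` if `4 ∣ M`, for `(9, 3)` if `9 ∣ M`
(one of the two is enough). -/
def ModelHypsL1 : Prop :=
  (4 ∣ M ∧ ModelHyps 4 8 M A) ∨ (9 ∣ M ∧ ModelHyps 9 3 M A)

/-- **(MODEL) at `L1 M`**, `4 ∣ M` or `9 ∣ M`, `p ∤ M`, `A` over `p`. -/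
theorem modelStep_L1 (hpM : ¬ p ∣ M) (hA : A.LiesOverPrime p) (H : ModelHypsL1 M A) :
    ModelStep (L1 M).F₀ A := by
  rcases H with ⟨hM, H⟩ | ⟨hM, H⟩
  · exact modelStep_L1_four M A hM hpM hA H
  · exact modelStep_L1_nine M A hM hpM hA H

/-! ### Discharge of (B6) from the BASE twins (helper89, `DS/G/RED/BASE/Main12`) -/

/-- `F_n ≤ F₀(L1 M)` for `n ∣ M`. -/
theorem full_le_L1_of_dvd {n : ℕ} [NeZero n] (hnM : n ∣ M) :
    modularFunctionFieldFull n ≤ (L1 M).F₀ :=
  le_trans (ModularCurve.full_degeneracy_le hnM) (full_le_L1 M)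

/-- (B6) at `L1 M`: the Hauptmodul of `X₀(n)` is unbranched away from the cusps. -/
theorem unbranched_L1 {n e : ℕ} [NeZero n] (hb : BaseHyp n e) (hnM : n ∣ M) :
    Unbranched n e (L1 M) :=
  (Fermat.Agent.DS.G.RED.BASE.Main12.baseExports hb (L1 M) (D1 M) (C1 M) (distinct1 M)
    (full_le_L1_of_dvd M hnM)).unbranched

/-- `ModelHyps` from the three inputs which are specific to the place `A`. -/
theorem modelHyps_of {n e : ℕ} [NeZero n] (hb : BaseHyp n e) (hnM : n ∣ M)
    (hG : GaussInputs (L1 M).F₀ A) (hover : OverTarget (L1 M).F₀ n e A (cvT n e M))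
    (hinf : InfTarget (L1 M).F₀ n e A) : ModelHyps n e M A :=
  ⟨unbranched_L1 M hb hnM, hG, hover, hinf⟩

/-- **(MODEL) at `L1 M`** from `GaussInputs` (IGUSA) and the two cusp targets (CUSP):
`4 ∣ M` or `9 ∣ M`, `p ∤ M`, `A` over `p`. -/
theorem modelStep_L1_of_targets (hM : 4 ∣ M ∨ 9 ∣ M) (hpM : ¬ p ∣ M) (hA : A.LiesOverPrime p)
    (hG : GaussInputs (L1 M).F₀ A)
    (h4 : 4 ∣ M → OverTarget (L1 M).F₀ 4 8 A (cvT 4 8 M) ∧ InfTarget (L1 M).F₀ 4 8 A)
    (h9 : 9 ∣ M → OverTarget (L1 M).F₀ 9 3 A (cvT 9 3 M) ∧ InfTarget (L1 M).F₀ 9 3 A) :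
    ModelStep (L1 M).F₀ A := by
  rcases hM with hM | hM
  · exact modelStep_L1_four M A hM hpM hA
      (modelHyps_of M A baseHyp_four hM hG (h4 hM).1 (h4 hM).2)
  · exact modelStep_L1_nine M A hM hpM hA
      (modelHyps_of M A baseHyp_nine hM hG (h9 hM).1 (h9 hM).2)

end Fermat.Agent.DS.G.RED.ModelL1
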