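/-
Programme DS (S48), chapter G-RED, L1 M INSTANCE of the CUSP top and FINAL form of (MODEL) at the
level `L1 M = X₁(M)/±` (helper19).

On top of helper77's generic `CUSP/CuspMain77` (`overTarget_of_hunr`, `infTarget_of_hunr`) and
`CUSP/CuspHoriz4` (`hH_over`, `hH_inf`), of helper55's `GaussInputsX1.gaussInputs_X1gens`
(unconditional `GaussInputs (L1 M).F₀ A`) and of `ModelL1`:

* `hH_over_L1`, `hH_inf_L1`     : the horizontal bridge at the cusp points of `X₁(M)/±`;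
* `overTarget_L1`, `infTarget_L1` : `OverTarget` / `InfTarget` from the cusp families alone;
* `modelStep_L1_of_families`    : `ModelStep (L1 M).F₀ A` from the cusp families alone
  (`FamOver n e M A`, `FamInf n e M A` = the hypotheses `hfam` of `CuspMain77`, to be produced by
  helper80's `CuspFamilyAbs80` + rank bridge at the instance `cuspExpK1 M` of helper29).
-/
import Fermat.Agent.DS.G.RED.ModelL1
import Fermat.Agent.DS.G.RED.CUSP.CuspMain77
import Fermat.Agent.DS.G.RED.CUSP.CuspHoriz4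
import Fermat.Agent.DS.G.ES.RED.GaussInputsX1

set_option autoImplicit false
set_option linter.unusedSectionVars false

open ModularCurve IntermediateField
open scoped MatrixGroups

noncomputable section

namespace Fermat.Agent.DS.G.RED.CuspL1

open Fermat.Agent.X0
open Fermat.Agent.RED.Interface4 (Qbar AK)
open Fermat.Agent.RED.BASE.Hauptmodul12 (BaseHyp baseHyp_four baseHyp_nine tGenBase')
open Fermat.Agent.RED.BASE.CuspExpMain11 (cvT)
open Fermat.Agent.RED.BASE.Interface12 (CuspSeparated)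
open Fermat.Agent.RED.ModelTargets4 (cuspSet)
open Fermat.Agent.RED.CUSP.CuspIface23
open Fermat.Agent.DS.G.Level Fermat.Agent.DS.X1.Level1 Fermat.Agent.DS.X1.Model1
open Fermat.Agent.DS.X1.CuspExp1
open Fermat.Agent.DS.G.RED.BASE.Interface12
open Fermat.Agent.DS.G.RED.ModelTargets4 Fermat.Agent.DS.G.RED.ModelMain4
open Fermat.Agent.DS.G.RED.ModelL1

variable (M : ℕ) [NeZero M] {p : ℕ} [Fact p.Prime] (A : ValuationSubring Qbar)

/-- `GaussInputs` at `L1 M` (helper55, unconditional). -/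
theorem gaussInputs_L1 (hpM : ¬ p ∣ M) (hA : A.LiesOverPrime p) : GaussInputs (L1 M).F₀ A :=
  Fermat.Agent.DS.G.ES.RED.GaussInputsX1.gaussInputs_X1gens M p hpM A hA

/-- The cusp families over the finite cusp values (hypothesis `hfam` of
`CuspMain77.overTarget_of_hunr` at `L1 M`). -/
def FamOver (n e : ℕ) [NeZero n] : Prop :=
  EventuallyT (L1 M).F₀ n e A fun K _ t =>
    ∀ c ∈ cuspSet A K (cvT n e M),
      HasCuspFamily (AK A K) (FK (L1 M).F₀ K) t c (Module.finrank ↥(↥K)⟮t⟯ ↥(FK (L1 M).F₀ K))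

/-- The cusp family over the poles of `t` (hypothesis `hfam` of `CuspMain77.infTarget_of_hunr`). -/
def FamInf (n e : ℕ) [NeZero n] : Prop :=
  EventuallyT (L1 M).F₀ n e A fun K _ t =>
    HasCuspFamily (AK A K) (FK (L1 M).F₀ K) t⁻¹ 0 (Module.finrank ↥(↥K)⟮t⁻¹⟯ ↥(FK (L1 M).F₀ K))

section General

variable {n e : ℕ} [NeZero n]

/-- The horizontal bridge at the cusp points over the finite cusp values of `X₁(M)/±`. -/
theorem hH_over_L1 (hb : BaseHyp n e) (hnM : n ∣ M) (hpM : ¬ p ∣ M) (hA : A.LiesOverPrime p)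
    (hC : CuspExp n e (L1 M) (C1 M) (cvT n e M)) (hsep : CuspSeparated n (cvT n e M)) :
    EventuallyT (L1 M).F₀ n e A fun K ϖ t =>
      ∀ c ∈ cuspSet A K (cvT n e M), HUNRCusp (AK A K) (FK (L1 M).F₀ K) ϖ t c :=
  Fermat.Agent.DS.G.RED.CUSP.CuspHoriz4.hH_over (placeInputs1 M) (cvT n e M)
    (tIsGen_L1 M (tq_mem_L1 M hb hnM)) (unbranched_L1 M hb hnM) hC hsep
    (fun h => hpM (dvd_trans h hnM)) hA

/-- The horizontal bridge at the cusp points `t⁻¹ = 0` of `X₁(M)/±`. -/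
theorem hH_inf_L1 (hb : BaseHyp n e) (hnM : n ∣ M) (hpM : ¬ p ∣ M) (hA : A.LiesOverPrime p)
    (hC : CuspExp n e (L1 M) (C1 M) (cvT n e M)) :
    EventuallyT (L1 M).F₀ n e A fun K ϖ t => HUNRCusp (AK A K) (FK (L1 M).F₀ K) ϖ t⁻¹ 0 :=
  Fermat.Agent.DS.G.RED.CUSP.CuspHoriz4.hH_inf (placeInputs1 M) (cvT n e M)
    (tIsGen_L1 M (tq_mem_L1 M hb hnM)) (unbranched_L1 M hb hnM) hC
    (fun h => hpM (dvd_trans h hnM)) hA

/-- **`OverTarget` at `L1 M`** from the cusp families. -/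
theorem overTarget_L1 (hb : BaseHyp n e) (hnM : n ∣ M) (hpM : ¬ p ∣ M) (hA : A.LiesOverPrime p)
    (hC : CuspExp n e (L1 M) (C1 M) (cvT n e M)) (hsep : CuspSeparated n (cvT n e M))
    (hfam : FamOver M A n e) : OverTarget (L1 M).F₀ n e A (cvT n e M) :=
  Fermat.Agent.DS.G.RED.CUSP.CuspMain77.overTarget_of_hunr hA (gaussInputs_L1 M A hpM hA)
    (tTarget (tq_mem_L1 M hb hnM)) (Fermat.Agent.RED.ModelFinal4.jTarget (tGenBase' hb))
    (cvT n e M) hfam (hH_over_L1 M A hb hnM hpM hA hC hsep)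

/-- **`InfTarget` at `L1 M`** from the cusp family at infinity. -/
theorem infTarget_L1 (hb : BaseHyp n e) (hnM : n ∣ M) (hpM : ¬ p ∣ M) (hA : A.LiesOverPrime p)
    (hC : CuspExp n e (L1 M) (C1 M) (cvT n e M)) (hfam : FamInf M A n e) :
    InfTarget (L1 M).F₀ n e A :=
  Fermat.Agent.DS.G.RED.CUSP.CuspMain77.infTarget_of_hunr hA (gaussInputs_L1 M A hpM hA)
    (tTarget (tq_mem_L1 M hb hnM)) (Fermat.Agent.RED.ModelFinal4.jTarget (tGenBase' hb))
    hfam (hH_inf_L1 M A hb hnM hpM hA hC)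

end General

/-- **(MODEL) at `L1 M` from the cusp families alone**: `4 ∣ M` or `9 ∣ M`, `p ∤ M`, `A | p`. -/
theorem modelStep_L1_of_families (hM : 4 ∣ M ∨ 9 ∣ M) (hpM : ¬ p ∣ M) (hA : A.LiesOverPrime p)
    (h4 : 4 ∣ M → FamOver M A 4 8 ∧ FamInf M A 4 8)
    (h9 : 9 ∣ M → FamOver M A 9 3 ∧ FamInf M A 9 3) :
    ModelStep (L1 M).F₀ A :=
  modelStep_L1_of_targets M A hM hpM hA (gaussInputs_L1 M A hpM hA)
    (fun hM4 => ⟨overTarget_L1 M A baseHyp_four hM4 hpM hA (cuspExp_four1 M hM4).1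
        (cuspExp_four1 M hM4).2 (h4 hM4).1,
      infTarget_L1 M A baseHyp_four hM4 hpM hA (cuspExp_four1 M hM4).1 (h4 hM4).2⟩)
    (fun hM9 => ⟨overTarget_L1 M A baseHyp_nine hM9 hpM hA (cuspExp_nine1 M hM9).1
        (cuspExp_nine1 M hM9).2 (h9 hM9).1,
      infTarget_L1 M A baseHyp_nine hM9 hpM hA (cuspExp_nine1 M hM9).1 (h9 hM9).2⟩)

end Fermat.Agent.DS.G.RED.CuspL1
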