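/-
DS (S48) / GEO / chapter G-RED, brick "diamond reduction" (helper92; abstract core).

**Reduction of an automorphism of the generic fibre to the special fibre.**

Setting: `E` a field (function field of the generic fibre), `V` a valuation subring of `E` (the
Gauss valuation ring), `Ft` a field (function field of the special fibre) and a SURJECTIVE ring
homomorphism `red : V →+* Ft` (the coefficientwise reduction; its kernel is then automatically the
maximal ideal of `V`).  A ring automorphism `δ` of `E` *stabilises* `V` (`Stab V δ`) if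
`y ∈ V ↔ δ y ∈ V`.

* `stab_of_unique` : if `V` is the only valuation subring of `E` with a given trace on a subset
  `E₀` fixed pointwise by `δ` (Igusa: the Gauss valuation of `K(j)` has a unique extension), then
  `δ` stabilises `V`.
* `bar red hred δ hδ : Ft ≃+* Ft`, the reduction of `δ`, characterised by
  `bar_red : bar δ (red y) = red (δ y)`; `bar_refl`, `bar_trans`, `bar_symm`, `bar_unique`,
  `bar_comm` (commuting automorphisms have commuting reductions), `bar_comm_hom`.
* constants: `bar_algebraMap`, `barAlg : Ft ≃ₐ[k] Ft` (when `δ` fixes lifts of the constants),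
  `barSemi : SemilinearAut k Ft` (`= ofAlgAut barAlg`), `barSemi_smul_red`;
  `semiOf` : the semilinear version (for the reduction of a Galois automorphism, e.g. Frobenius);
* `barSemi_mul_comm` : **the reduced diamond commutes with Frobenius** in `SemilinearAut k Ft`;
* `mul_inv_mul` : with `W := d' * Fr⁻¹` one has `W * Fr = d'` (shape of `TorsionGalois`).
-/
import Mathlib
import Fermat.Prelude.Def_AlgebraicCurve_BaseChangeGalois

set_option autoImplicit false
set_option linter.unusedSectionVars false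

noncomputable section

open AlgebraicCurve

namespace Fermat.Agent.DS.G.RED.DiaRed

/-! ### Automorphisms stabilising a valuation subring -/

section Stab

variable {E : Type*} [Field E] (V : ValuationSubring E)

/-- `δ` stabilises the valuation subring `V`. -/
def Stab (δ : E ≃+* E) : Prop := ∀ y : E, y ∈ V ↔ δ y ∈ V

variable {V}

theorem Stab.refl : Stab V (RingEquiv.refl E) := fun _ => Iff.rfl

theorem Stab.symm {δ : E ≃+* E} (h : Stab V δ) : Stab V δ.symm := fun y => by
  have := h (δ.symm y)
  rw [RingEquiv.apply_symm_apply] at this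
  exact this.symm

theorem Stab.trans {δ σ : E ≃+* E} (hδ : Stab V δ) (hσ : Stab V σ) : Stab V (δ.trans σ) :=
  fun y => (hδ y).trans (hσ (δ y))

theorem Stab.mul {δ σ : E ≃+* E} (hδ : Stab V δ) (hσ : Stab V σ) :
    Stab V ((δ * σ : RingAut E) : E ≃+* E) :=
  fun y => (hσ y).trans (hδ (σ y))

theorem Stab.of_forall {δ : E ≃+* E} (h : ∀ y ∈ V, δ y ∈ V) (h' : ∀ y ∈ V, δ.symm y ∈ V) :
    Stab V δ := fun y =>
  ⟨h y, fun hy => by have := h' _ hy; rwa [RingEquiv.symm_apply_apply] at this⟩

/-- **Stability from uniqueness of the extension.** If `V` is the only valuation subring of `E`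
having the same trace as `V` on a set `E₀`, and `δ` fixes `E₀` pointwise, then `δ` stabilises
`V`. -/
theorem stab_of_unique (E₀ : Set E)
    (huniq : ∀ W : ValuationSubring E, (∀ x ∈ E₀, x ∈ W ↔ x ∈ V) → W = V)
    (δ : E ≃+* E) (hfix : ∀ x ∈ E₀, δ x = x) : Stab V δ := by
  have hW : V.comap (δ : E →+* E) = V := by
    apply huniq
    intro x hx
    rw [ValuationSubring.mem_comap]
    show δ x ∈ V ↔ x ∈ V
    rw [hfix x hx]
  intro y
  have : y ∈ V.comap (δ : E →+* E) ↔ y ∈ V := by rw [hW]
  rw [← this, ValuationSubring.mem_comap]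
  rfl

/-- The restriction of a stabilising automorphism to `V`. -/
def restrictV (δ : E ≃+* E) (hδ : Stab V δ) : ↥V ≃+* ↥V where
  toFun y := ⟨δ (y : E), (hδ y).mp y.2⟩
  invFun y := ⟨δ.symm (y : E), (hδ.symm y).mp y.2⟩
  left_inv y := Subtype.ext (δ.symm_apply_apply (y : E))
  right_inv y := Subtype.ext (δ.apply_symm_apply (y : E))
  map_mul' x y := Subtype.ext (map_mul δ (x : E) (y : E))
  map_add' x y := Subtype.ext (map_add δ (x : E) (y : E))

@[simp] theorem coe_restrictV (δ : E ≃+* E) (hδ : Stab V δ) (y : ↥V) :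
    ((restrictV δ hδ y : ↥V) : E) = δ y := rfl

end Stab

/-! ### The reduction of a stabilising automorphism -/

section Core

variable {E Ft : Type*} [Field E] [Field Ft] {V : ValuationSubring E}
  (red : ↥V →+* Ft) (hred : Function.Surjective red)

include hred in
/-- The kernel of a surjection of `V` onto a field is the maximal ideal. -/
theorem ker_red_eq : RingHom.ker red = IsLocalRing.maximalIdeal ↥V :=
  IsLocalRing.eq_maximalIdeal (RingHom.ker_isMaximal_of_surjective red hred)

include hred in
theorem red_eq_zero_iff (x : ↥V) : red x = 0 ↔ ¬ IsUnit x := by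
  rw [← RingHom.mem_ker, ker_red_eq red hred, IsLocalRing.mem_maximalIdeal, mem_nonunits_iff]

include hred in
theorem ker_le (δ : E ≃+* E) (hδ : Stab V δ) :
    RingHom.ker red ≤ RingHom.ker (red.comp (restrictV δ hδ : ↥V →+* ↥V)) := by
  intro x hx
  rw [RingHom.mem_ker] at hx ⊢
  rw [red_eq_zero_iff red hred] at hx
  rw [RingHom.comp_apply, red_eq_zero_iff red hred]
  intro hu
  apply hx
  have := hu.map (restrictV δ hδ).symm
  simpa using this

/-- The reduction of `δ` as a ring endomorphism of `Ft`. -/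
def barHom (δ : E ≃+* E) (hδ : Stab V δ) : Ft →+* Ft :=
  RingHom.liftOfSurjective red hred
    ⟨red.comp (restrictV δ hδ : ↥V →+* ↥V), ker_le red hred δ hδ⟩

theorem barHom_red (δ : E ≃+* E) (hδ : Stab V δ) (y : ↥V) :
    barHom red hred δ hδ (red y) = red (restrictV δ hδ y) :=
  RingHom.liftOfRightInverse_comp_apply _ _ _ _ y

theorem barHom_symm_barHom (δ : E ≃+* E) (hδ : Stab V δ) (z : Ft) :
    barHom red hred δ.symm hδ.symm (barHom red hred δ hδ z) = z := by
  obtain ⟨y, rfl⟩ := hred z
  rw [barHom_red, barHom_red]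
  congr 1
  exact Subtype.ext (δ.symm_apply_apply y)

theorem barHom_barHom_symm (δ : E ≃+* E) (hδ : Stab V δ) (z : Ft) :
    barHom red hred δ hδ (barHom red hred δ.symm hδ.symm z) = z := by
  obtain ⟨y, rfl⟩ := hred z
  rw [barHom_red, barHom_red]
  congr 1
  exact Subtype.ext (δ.apply_symm_apply y)

/-- **The reduction of `δ`**, an automorphism of the special fibre field. -/
def bar (δ : E ≃+* E) (hδ : Stab V δ) : Ft ≃+* Ft :=
  { barHom red hred δ hδ with
    invFun := barHom red hred δ.symm hδ.symm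
    left_inv := barHom_symm_barHom red hred δ hδ
    right_inv := barHom_barHom_symm red hred δ hδ }

/-- **Characterisation**: `bar δ (red y) = red (δ y)`. -/
theorem bar_red (δ : E ≃+* E) (hδ : Stab V δ) (y : ↥V) :
    bar red hred δ hδ (red y) = red (restrictV δ hδ y) :=
  barHom_red red hred δ hδ y

theorem bar_symm_red (δ : E ≃+* E) (hδ : Stab V δ) (y : ↥V) :
    (bar red hred δ hδ).symm (red y) = red (restrictV δ.symm hδ.symm y) :=
  barHom_red red hred δ.symm hδ.symm y

/-- Uniqueness: a map intertwining `red` with `δ` is the reduction of `δ`. -/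
theorem bar_unique (δ : E ≃+* E) (hδ : Stab V δ) {f : Ft → Ft}
    (hf : ∀ y : ↥V, f (red y) = red (restrictV δ hδ y)) (z : Ft) :
    f z = bar red hred δ hδ z := by
  obtain ⟨y, rfl⟩ := hred z
  rw [hf, bar_red]

theorem bar_refl (z : Ft) : bar red hred (RingEquiv.refl E) Stab.refl z = z := by
  obtain ⟨y, rfl⟩ := hred z
  rw [bar_red]
  congr 1

theorem bar_symm (δ : E ≃+* E) (hδ : Stab V δ) :
    (bar red hred δ hδ).symm = bar red hred δ.symm hδ.symm := by
  ext z
  obtain ⟨y, rfl⟩ := hred z
  rw [bar_symm_red, bar_red]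

theorem bar_trans (δ σ : E ≃+* E) (hδ : Stab V δ) (hσ : Stab V σ) (z : Ft) :
    bar red hred (δ.trans σ) (hδ.trans hσ) z = bar red hred σ hσ (bar red hred δ hδ z) := by
  obtain ⟨y, rfl⟩ := hred z
  rw [bar_red, bar_red, bar_red]
  congr 1

theorem bar_congr {δ σ : E ≃+* E} (hδ : Stab V δ) (hσ : Stab V σ) (h : ∀ y : E, δ y = σ y)
    (z : Ft) : bar red hred δ hδ z = bar red hred σ hσ z := by
  obtain ⟨y, rfl⟩ := hred z
  rw [bar_red, bar_red]
  congr 1
  exact Subtype.ext (h y)

/-- **Commuting automorphisms have commuting reductions.** -/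
theorem bar_comm (δ σ : E ≃+* E) (hδ : Stab V δ) (hσ : Stab V σ)
    (hcomm : ∀ y : E, δ (σ y) = σ (δ y)) (z : Ft) :
    bar red hred δ hδ (bar red hred σ hσ z) = bar red hred σ hσ (bar red hred δ hδ z) := by
  obtain ⟨y, rfl⟩ := hred z
  rw [bar_red, bar_red, bar_red, bar_red]
  congr 1
  exact Subtype.ext (hcomm y)

/-- The reduction of `δ` commutes with any map `Fr` of `Ft` which is the reduction of an
automorphism `σ` commuting with `δ` (e.g. `Fr` = coefficientwise Frobenius, `σ` = a Frobenius
lift acting coefficientwise). -/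
theorem bar_comm_hom (δ σ : E ≃+* E) (hδ : Stab V δ) (hσ : Stab V σ)
    (hcomm : ∀ y : E, δ (σ y) = σ (δ y)) {Fr : Ft → Ft}
    (hFr : ∀ y : ↥V, Fr (red y) = red (restrictV σ hσ y)) (z : Ft) :
    bar red hred δ hδ (Fr z) = Fr (bar red hred δ hδ z) := by
  rw [bar_unique red hred σ hσ hFr, bar_unique red hred σ hσ hFr]
  exact bar_comm red hred δ σ hδ hσ hcomm z

end Core

/-! ### Constants: linear and semilinear structure -/

section Linear

variable {E Ft k : Type*} [Field E] [Field Ft] [Field k] [Algebra k Ft] {V : ValuationSubring E}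
  (red : ↥V →+* Ft) (hred : Function.Surjective red)

/-- If every constant `x ∈ k` has a lift `y ∈ V` on which `δ` acts as a lift of `φ x`, then the
reduction of `δ` is `φ`-semilinear. -/
theorem bar_algebraMap_of (δ : E ≃+* E) (hδ : Stab V δ) (φ : k → k)
    (hconst : ∀ x : k, ∃ y : ↥V, red y = algebraMap k Ft x ∧
      red (restrictV δ hδ y) = algebraMap k Ft (φ x)) (x : k) :
    bar red hred δ hδ (algebraMap k Ft x) = algebraMap k Ft (φ x) := by
  obtain ⟨y, hy, hy'⟩ := hconst x
  rw [← hy, bar_red, hy']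

/-- **The semilinear automorphism of the special fibre induced by `δ`**, with base automorphism
`φ`. -/
def semiOf (δ : E ≃+* E) (hδ : Stab V δ) (φ : k ≃+* k)
    (hφ : ∀ x : k, bar red hred δ hδ (algebraMap k Ft x) = algebraMap k Ft (φ x)) :
    SemilinearAut k Ft :=
  ⟨(bar red hred δ hδ, φ), hφ⟩

@[simp] theorem semiOf_smul (δ : E ≃+* E) (hδ : Stab V δ) (φ : k ≃+* k)
    (hφ : ∀ x : k, bar red hred δ hδ (algebraMap k Ft x) = algebraMap k Ft (φ x)) (z : Ft) :
    semiOf red hred δ hδ φ hφ • z = bar red hred δ hδ z := rfl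

theorem semiOf_smul_red (δ : E ≃+* E) (hδ : Stab V δ) (φ : k ≃+* k)
    (hφ : ∀ x : k, bar red hred δ hδ (algebraMap k Ft x) = algebraMap k Ft (φ x)) (y : ↥V) :
    semiOf red hred δ hδ φ hφ • red y = red (restrictV δ hδ y) :=
  bar_red red hred δ hδ y

@[simp] theorem baseAut_semiOf (δ : E ≃+* E) (hδ : Stab V δ) (φ : k ≃+* k)
    (hφ : ∀ x : k, bar red hred δ hδ (algebraMap k Ft x) = algebraMap k Ft (φ x)) :
    SemilinearAut.baseAut (semiOf red hred δ hδ φ hφ) = φ := rfl

include hred in
/-- A semilinear automorphism of `Ft` is determined by its base automorphism and its values on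
`red V`. -/
theorem semi_ext {g h : SemilinearAut k Ft}
    (hb : SemilinearAut.baseAut g = SemilinearAut.baseAut h)
    (hv : ∀ y : ↥V, g • red y = h • red y) : g = h := by
  apply Subtype.ext
  apply Prod.ext
  · apply RingEquiv.ext
    intro z
    obtain ⟨y, rfl⟩ := hred z
    exact hv y
  · exact hb

/-- `semiOf` is the unique semilinear automorphism with base `φ` intertwining `red` and `δ`. -/
theorem eq_semiOf (δ : E ≃+* E) (hδ : Stab V δ) (g : SemilinearAut k Ft)
    (hg : ∀ y : ↥V, g • red y = red (restrictV δ hδ y)) :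
    ∃ hφ, g = semiOf red hred δ hδ (SemilinearAut.baseAut g) hφ := by
  have hφ : ∀ x : k, bar red hred δ hδ (algebraMap k Ft x) =
      algebraMap k Ft (SemilinearAut.baseAut g x) := by
    intro x
    rw [← bar_unique red hred δ hδ (f := fun z => g • z) hg, SemilinearAut.smul_algebraMap]
  refine ⟨hφ, ?_⟩
  refine semi_ext red hred (g := g) (h := semiOf red hred δ hδ (SemilinearAut.baseAut g) hφ)
    rfl ?_
  intro y
  rw [hg, semiOf_smul_red]

/-- **Linear case**: if `δ` fixes lifts of all constants, its reduction is `k`-linear. -/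
def barAlg (δ : E ≃+* E) (hδ : Stab V δ)
    (hconst : ∀ x : k, ∃ y : ↥V, red y = algebraMap k Ft x ∧ δ y = y) : Ft ≃ₐ[k] Ft :=
  { bar red hred δ hδ with
    commutes' := fun x => by
      obtain ⟨y, hy, hy'⟩ := hconst x
      show bar red hred δ hδ (algebraMap k Ft x) = algebraMap k Ft x
      rw [← hy, bar_red]
      congr 1
      exact Subtype.ext hy' }

@[simp] theorem barAlg_apply (δ : E ≃+* E) (hδ : Stab V δ)
    (hconst : ∀ x : k, ∃ y : ↥V, red y = algebraMap k Ft x ∧ δ y = y) (z : Ft) :
    barAlg red hred δ hδ hconst z = bar red hred δ hδ z := rfl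

/-- **The reduced diamond** as an element of `SemilinearAut k Ft` (trivial base automorphism). -/
def barSemi (δ : E ≃+* E) (hδ : Stab V δ)
    (hconst : ∀ x : k, ∃ y : ↥V, red y = algebraMap k Ft x ∧ δ y = y) : SemilinearAut k Ft :=
  SemilinearAut.ofAlgAut (barAlg red hred δ hδ hconst)

@[simp] theorem barSemi_smul (δ : E ≃+* E) (hδ : Stab V δ)
    (hconst : ∀ x : k, ∃ y : ↥V, red y = algebraMap k Ft x ∧ δ y = y) (z : Ft) :
    barSemi red hred δ hδ hconst • z = bar red hred δ hδ z := rfl

/-- `d' • red y = red (δ y)`: the `red_τB` field of a chart symmetry. -/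
theorem barSemi_smul_red (δ : E ≃+* E) (hδ : Stab V δ)
    (hconst : ∀ x : k, ∃ y : ↥V, red y = algebraMap k Ft x ∧ δ y = y) (y : ↥V) :
    barSemi red hred δ hδ hconst • red y = red (restrictV δ hδ y) :=
  bar_red red hred δ hδ y

@[simp] theorem baseAut_barSemi (δ : E ≃+* E) (hδ : Stab V δ)
    (hconst : ∀ x : k, ∃ y : ↥V, red y = algebraMap k Ft x ∧ δ y = y) :
    SemilinearAut.baseAut (barSemi red hred δ hδ hconst) = 1 := rfl

/-- **The reduced diamond commutes with Frobenius**: if `Fr ∈ SemilinearAut k Ft` is the reduction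
of an automorphism `σ` of `E` (`Fr • red y = red (σ y)`) commuting with `δ`, then
`d' * Fr = Fr * d'`. -/
theorem barSemi_mul_comm (δ σ : E ≃+* E) (hδ : Stab V δ) (hσ : Stab V σ)
    (hconst : ∀ x : k, ∃ y : ↥V, red y = algebraMap k Ft x ∧ δ y = y)
    (hcomm : ∀ y : E, δ (σ y) = σ (δ y)) (Fr : SemilinearAut k Ft)
    (hFr : ∀ y : ↥V, Fr • red y = red (restrictV σ hσ y)) :
    barSemi red hred δ hδ hconst * Fr = Fr * barSemi red hred δ hδ hconst := by
  apply semi_ext red hred
  · rw [SemilinearAut.baseAut_mul, SemilinearAut.baseAut_mul, baseAut_barSemi, one_mul, mul_one]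
  · intro y
    rw [mul_smul, mul_smul, barSemi_smul, barSemi_smul]
    exact bar_comm_hom red hred δ σ hδ hσ hcomm (Fr := fun z => Fr • z) hFr (red y)

/-- With `W := d' * Fr⁻¹` one has `W * Fr = d'` (the shape used by `Top/TorsionGalois`). -/
theorem mul_inv_mul (d' Fr : SemilinearAut k Ft) : d' * Fr⁻¹ * Fr = d' :=
  inv_mul_cancel_right d' Fr

/-- and `W = Fr⁻¹ * d'` when `d'` commutes with `Fr`. -/
theorem mul_inv_eq_inv_mul {d' Fr : SemilinearAut k Ft} (h : d' * Fr = Fr * d') :
    d' * Fr⁻¹ = Fr⁻¹ * d' := by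
  rw [eq_inv_mul_iff_mul_eq, ← mul_assoc, ← h, mul_assoc, mul_inv_cancel, mul_one]

end Linear

end Fermat.Agent.DS.G.RED.DiaRed
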