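/-
DS (S48) / GEO / chapter G-RED, brick "diamond reduction" (helper92), part 2: **from integral
rings to the Gauss valuation ring, and the reduced automorphism on chart rings.**

`DiaRed.lean` works with a valuation subring `V ⊆ F` and a surjection `red : V →+* Ft`.  The RED
chapter works with *integral rings*: a subring `G ⊆ F` of functions with `A`-integral expansion
(a chart ring `S.B` of `ES/RED/Contract8.ChartSpec`, or the common Gauss ring
`ES/RED/GaussRing15.gaussRing`), with a reduction `red : G →+* Ft` which is NOT the residue map of a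
valuation ring (e.g. `π + u`, `u` a modular unit vanishing at another cusp, is a non-unit of `G` with
non-zero reduction).  This file bridges the two:

* `IntRed A F Ft` : an integral ring `G` with reduction `red`, constants, and the representation
  property `exists_rep : f ≠ 0 → f * b = c • a` with `c ∈ Lˣ`, `a b ∈ G`, `red a ≠ 0 ≠ red b`
  (content + fractions; `IntRed.ofChart` from a `ChartSpec`);
* `I.gaussV : ValuationSubring F` `= {a / b : a b ∈ G, red b ≠ 0}` (the localisation of `G` at
  `ker red`), `I.redV : I.gaussV →+* Ft` extending `red` (`redV_coe`), `redV_eq`,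
  `redV_surjective` (when `Ft = Frac (red G)`);
* for an `L`-automorphism `σ` of `F` stabilising `I.gaussV` (Igusa) :
  `I.diaBar hsurj σ hσ : SemilinearAut (kA A) Ft` (the reduced diamond), and
  **`red_smul`** : `red (σ g) = diaBar • red g` for `g ∈ G` with `σ g ∈ G` — the statement `(hδB)`
  consumed chart by chart by `KRON/RedAut24` and by `GaloisContract21.ChartSym.red_τB`;
* `stab_of_ker` : `σ` stabilises `I.gaussV` as soon as it preserves `G` and `ker red`;
* `diaBar_mul_comm` : the reduced diamond commutes with (the reduction of) Frobenius.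
-/
import Mathlib
import Fermat.Agent.ES.RED.Contract8
import Fermat.Agent.DS.G.RED.DiaRed

set_option autoImplicit false
set_option linter.unusedSectionVars false
set_option linter.dupNamespace false

noncomputable section

open AlgebraicCurve

namespace Fermat.Agent.DS.G.RED.DiaRedChart

open Fermat.Agent.ES.RED.Contract8 Fermat.Agent.DS.G.RED.DiaRed

variable {L : Type*} [Field L] (A : ValuationSubring L)
variable (F : Type*) [Field F] [Algebra L F] (Ft : Type*) [Field Ft] [Algebra (kA A) Ft]

/-- **An integral ring with reduction.** -/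
structure IntRed where
  /-- the integral ring -/
  G : Subring F
  /-- the reduction -/
  red : ↥G →+* Ft
  const_mem : ∀ a : ↥A, algebraMap L F (a : L) ∈ G
  red_const : ∀ a : ↥A,
    red ⟨algebraMap L F (a : L), const_mem a⟩ = algebraMap (kA A) Ft (resA A a)
  /-- content + fractions: every non-zero function is a constant times a quotient of integral
  functions with non-zero reduction. -/
  exists_rep : ∀ f : F, f ≠ 0 → ∃ (c : L) (a b : ↥G), c ≠ 0 ∧ red a ≠ 0 ∧ red b ≠ 0 ∧
    f * (b : F) = algebraMap L F c * (a : F)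

namespace IntRed

variable {A F Ft}
variable (I : IntRed A F Ft)

/-- the constant `a ∈ A` as an element of `G`. -/
def const (a : ↥A) : ↥I.G := ⟨algebraMap L F (a : L), I.const_mem a⟩

@[simp] theorem coe_const (a : ↥A) : ((I.const a : ↥I.G) : F) = algebraMap L F (a : L) := rfl

theorem red_const' (a : ↥A) : I.red (I.const a) = algebraMap (kA A) Ft (resA A a) :=
  I.red_const a

theorem const_mul (a b : ↥A) : I.const (a * b) = I.const a * I.const b :=
  Subtype.ext (by simp)

/-! ### The Gauss valuation ring -/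

/-- membership in the Gauss valuation ring: `f = a / b` with `a b ∈ G`, `red b ≠ 0`. -/
def IsFrac (f : F) : Prop := ∃ a b : ↥I.G, I.red b ≠ 0 ∧ f * (b : F) = (a : F)

theorem isFrac_coe (g : ↥I.G) : I.IsFrac (g : F) :=
  ⟨g, 1, by rw [map_one]; exact one_ne_zero, by simp⟩

theorem coe_ne_zero_of_red {b : ↥I.G} (hb : I.red b ≠ 0) : (b : F) ≠ 0 := by
  intro h
  apply hb
  have : b = 0 := Subtype.ext h
  rw [this, map_zero]

theorem IsFrac.mul {f g : F} (hf : I.IsFrac f) (hg : I.IsFrac g) : I.IsFrac (f * g) := by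
  obtain ⟨a, b, hb, hab⟩ := hf
  obtain ⟨a', b', hb', hab'⟩ := hg
  refine ⟨a * a', b * b', by rw [map_mul]; exact mul_ne_zero hb hb', ?_⟩
  push_cast
  rw [← hab, ← hab']
  ring

theorem IsFrac.add {f g : F} (hf : I.IsFrac f) (hg : I.IsFrac g) : I.IsFrac (f + g) := by
  obtain ⟨a, b, hb, hab⟩ := hf
  obtain ⟨a', b', hb', hab'⟩ := hg
  refine ⟨a * b' + a' * b, b * b', by rw [map_mul]; exact mul_ne_zero hb hb', ?_⟩
  push_cast
  rw [← hab, ← hab']
  ring

theorem IsFrac.neg {f : F} (hf : I.IsFrac f) : I.IsFrac (-f) := by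
  obtain ⟨a, b, hb, hab⟩ := hf
  refine ⟨-a, b, hb, ?_⟩
  push_cast
  rw [← hab]
  ring

theorem isFrac_or_inv (f : F) : I.IsFrac f ∨ I.IsFrac f⁻¹ := by
  rcases eq_or_ne f 0 with rfl | hf
  · left
    simpa using I.isFrac_coe 0
  obtain ⟨c, a, b, hc, ha, hb, hab⟩ := I.exists_rep f hf
  have ha0 := I.coe_ne_zero_of_red ha
  have hb0 := I.coe_ne_zero_of_red hb
  rcases A.mem_or_inv_mem c with hcA | hcA
  · left
    refine ⟨I.const ⟨c, hcA⟩ * a, b, hb, ?_⟩
    push_cast
    rw [hab]
    rfl
  · right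
    refine ⟨I.const ⟨c⁻¹, hcA⟩ * b, a, ha, ?_⟩
    push_cast
    have hcF : algebraMap L F c ≠ 0 := by
      rw [Ne, map_eq_zero_iff _ (algebraMap L F).injective]
      exact hc
    have : f = algebraMap L F c * (a : F) / (b : F) := by
      rw [eq_div_iff hb0, hab]
    rw [this, I.coe_const]
    simp only [map_inv₀]
    field_simp

/-- **The Gauss valuation ring** of an integral ring with reduction. -/
def gaussV : ValuationSubring F where
  carrier := {f | I.IsFrac f}
  mul_mem' := fun hf hg => hf.mul I hg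
  one_mem' := by simpa using I.isFrac_coe 1
  add_mem' := fun hf hg => hf.add I hg
  zero_mem' := by simpa using I.isFrac_coe 0
  neg_mem' := fun hf => hf.neg I
  mem_or_inv_mem' := I.isFrac_or_inv

theorem mem_gaussV_iff (f : F) : f ∈ I.gaussV ↔ I.IsFrac f := Iff.rfl

theorem coe_mem_gaussV (g : ↥I.G) : (g : F) ∈ I.gaussV := I.isFrac_coe g

/-- the inclusion `G ⊆ V`. -/
def toV : ↥I.G →+* ↥I.gaussV where
  toFun g := ⟨(g : F), I.coe_mem_gaussV g⟩
  map_one' := rfl
  map_mul' _ _ := rfl
  map_zero' := rfl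
  map_add' _ _ := rfl

@[simp] theorem coe_toV (g : ↥I.G) : ((I.toV g : ↥I.gaussV) : F) = g := rfl

/-! ### The reduction on the Gauss valuation ring -/

/-- a numerator of `f ∈ V`. -/
def num (f : ↥I.gaussV) : ↥I.G := Classical.choose f.2

/-- a denominator of `f ∈ V`. -/
def den (f : ↥I.gaussV) : ↥I.G := Classical.choose (Classical.choose_spec f.2)

theorem red_den_ne_zero (f : ↥I.gaussV) : I.red (I.den f) ≠ 0 :=
  (Classical.choose_spec (Classical.choose_spec f.2)).1

theorem mul_den (f : ↥I.gaussV) : (f : F) * (I.den f : F) = (I.num f : F) :=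
  (Classical.choose_spec (Classical.choose_spec f.2)).2

/-- the reduction of `f = a / b` is `red a / red b`. -/
def redFun (f : ↥I.gaussV) : Ft := I.red (I.num f) / I.red (I.den f)

/-- the reduction is computed by ANY representation `f * b = a`. -/
theorem redFun_eq (f : ↥I.gaussV) {a b : ↥I.G} (hb : I.red b ≠ 0) (h : (f : F) * (b : F) = (a : F)) :
    I.redFun f = I.red a / I.red b := by
  unfold redFun
  rw [div_eq_div_iff (I.red_den_ne_zero f) hb, ← map_mul, ← map_mul]
  congr 1
  apply Subtype.ext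
  push_cast
  rw [← I.mul_den f, ← h]
  ring

/-- **The reduction homomorphism on the Gauss valuation ring.** -/
def redV : ↥I.gaussV →+* Ft where
  toFun := I.redFun
  map_one' := by
    rw [I.redFun_eq 1 (a := 1) (b := 1) (by rw [map_one]; exact one_ne_zero) (by simp), map_one,
      div_one]
  map_mul' f g := by
    rw [I.redFun_eq (f * g) (a := I.num f * I.num g) (b := I.den f * I.den g)
      (by rw [map_mul]; exact mul_ne_zero (I.red_den_ne_zero f) (I.red_den_ne_zero g))
      (by push_cast; rw [← I.mul_den f, ← I.mul_den g]; ring)]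
    unfold redFun
    rw [map_mul, map_mul, mul_div_mul_comm]
  map_zero' := by
    rw [I.redFun_eq 0 (a := 0) (b := 1) (by rw [map_one]; exact one_ne_zero) (by simp), map_zero,
      zero_div]
  map_add' f g := by
    rw [I.redFun_eq (f + g) (a := I.num f * I.den g + I.num g * I.den f) (b := I.den f * I.den g)
      (by rw [map_mul]; exact mul_ne_zero (I.red_den_ne_zero f) (I.red_den_ne_zero g))
      (by push_cast; rw [← I.mul_den f, ← I.mul_den g]; ring)]
    unfold redFun
    rw [map_add, map_mul, map_mul, map_mul, div_add_div _ _ (I.red_den_ne_zero f)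
      (I.red_den_ne_zero g)]
    ring

theorem redV_eq (f : ↥I.gaussV) {a b : ↥I.G} (hb : I.red b ≠ 0) (h : (f : F) * (b : F) = (a : F)) :
    I.redV f = I.red a / I.red b := I.redFun_eq f hb h

/-- `redV` extends `red`. -/
@[simp] theorem redV_coe (g : ↥I.G) : I.redV (I.toV g) = I.red g := by
  rw [I.redV_eq (I.toV g) (a := g) (b := 1) (by rw [map_one]; exact one_ne_zero) (by simp),
    map_one, div_one]

/-- `redV` is surjective as soon as `Ft` is the fraction field of `red G`. -/
theorem redV_surjective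
    (hfrac : ∀ z : Ft, ∃ a b : ↥I.G, I.red b ≠ 0 ∧ z * I.red b = I.red a) :
    Function.Surjective I.redV := by
  intro z
  obtain ⟨a, b, hb, hz⟩ := hfrac z
  have hb0 := I.coe_ne_zero_of_red hb
  refine ⟨⟨(a : F) / (b : F), ⟨a, b, hb, div_mul_cancel₀ _ hb0⟩⟩, ?_⟩
  rw [I.redV_eq _ hb (div_mul_cancel₀ _ hb0), div_eq_iff hb, hz]

/-! ### The reduced automorphism -/

section Dia

variable (hsurj : Function.Surjective I.redV)

/-- an `L`-automorphism fixes lifts of the constants. -/
theorem hconst (σ : F ≃ₐ[L] F) (x : kA A) :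
    ∃ y : ↥I.gaussV, I.redV y = algebraMap (kA A) Ft x ∧ (σ : F ≃+* F) (y : F) = y := by
  obtain ⟨a, rfl⟩ := IsLocalRing.residue_surjective x
  refine ⟨I.toV (I.const a), ?_, ?_⟩
  · rw [I.redV_coe, I.red_const']
  · show σ (algebraMap L F (a : L)) = algebraMap L F (a : L)
    exact σ.commutes _

/-- **The reduced diamond**: the `kA A`-linear automorphism of the special fibre field induced by an
`L`-automorphism of `F` stabilising the Gauss valuation ring. -/
def diaBar (σ : F ≃ₐ[L] F) (hσ : Stab I.gaussV (σ : F ≃+* F)) : SemilinearAut (kA A) Ft :=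
  barSemi I.redV hsurj (σ : F ≃+* F) hσ (I.hconst σ)

@[simp] theorem baseAut_diaBar (σ : F ≃ₐ[L] F) (hσ : Stab I.gaussV (σ : F ≃+* F)) :
    SemilinearAut.baseAut (I.diaBar hsurj σ hσ) = 1 := rfl

/-- `diaBar • redV y = redV (σ y)`. -/
theorem diaBar_smul_redV (σ : F ≃ₐ[L] F) (hσ : Stab I.gaussV (σ : F ≃+* F)) (y : ↥I.gaussV) :
    I.diaBar hsurj σ hσ • I.redV y = I.redV (restrictV (σ : F ≃+* F) hσ y) :=
  barSemi_smul_red I.redV hsurj (σ : F ≃+* F) hσ (I.hconst σ) y

/-- **(hδB)**: on the integral ring, `red (σ g) = diaBar • red g` whenever `σ g` is again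
integral. -/
theorem red_smul (σ : F ≃ₐ[L] F) (hσ : Stab I.gaussV (σ : F ≃+* F)) (g : ↥I.G)
    (hg : σ (g : F) ∈ I.G) :
    I.red ⟨σ (g : F), hg⟩ = I.diaBar hsurj σ hσ • I.red g := by
  rw [← I.redV_coe g, I.diaBar_smul_redV hsurj σ hσ, ← I.redV_coe ⟨σ (g : F), hg⟩]
  rfl

include hsurj in
/-- non-vanishing of the reduction is preserved. -/
theorem red_smul_ne_zero (σ : F ≃ₐ[L] F) (hσ : Stab I.gaussV (σ : F ≃+* F)) (g : ↥I.G)
    (hg : σ (g : F) ∈ I.G) (h : I.red g ≠ 0) : I.red ⟨σ (g : F), hg⟩ ≠ 0 := by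
  rw [I.red_smul hsurj σ hσ g hg, SemilinearAut.smul_def]
  exact fun h0 => h ((map_eq_zero_iff _ (RingEquiv.injective _)).mp h0)

/-- if `σ` fixes `g ∈ G`, the reduced diamond fixes `red g` (e.g. `g` = the chart coordinate, a
function of `j`). -/
theorem diaBar_smul_red_of_fixed (σ : F ≃ₐ[L] F) (hσ : Stab I.gaussV (σ : F ≃+* F)) (g : ↥I.G)
    (hg : σ (g : F) = g) : I.diaBar hsurj σ hσ • I.red g = I.red g := by
  have hmem : σ (g : F) ∈ I.G := by rw [hg]; exact g.2
  rw [← I.red_smul hsurj σ hσ g hmem]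
  congr 1
  exact Subtype.ext hg

/-- **The reduced diamond commutes with Frobenius** (any `Fr` which is the reduction of an
automorphism `τ` of `F` commuting with `σ`). -/
theorem diaBar_mul_comm (σ : F ≃ₐ[L] F) (hσ : Stab I.gaussV (σ : F ≃+* F)) (τ : F ≃+* F)
    (hτ : Stab I.gaussV τ) (hcomm : ∀ y : F, σ (τ y) = τ (σ y)) (Fr : SemilinearAut (kA A) Ft)
    (hFr : ∀ y : ↥I.gaussV, Fr • I.redV y = I.redV (restrictV τ hτ y)) :
    I.diaBar hsurj σ hσ * Fr = Fr * I.diaBar hsurj σ hσ :=
  barSemi_mul_comm I.redV hsurj (σ : F ≃+* F) τ hσ hτ (I.hconst σ) hcomm Fr hFr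

end Dia

/-- `σ` stabilises the Gauss valuation ring as soon as it preserves `G` and `ker red`. -/
theorem stab_of_ker (σ : F ≃+* F) (hG : ∀ g : F, g ∈ I.G → σ g ∈ I.G)
    (hG' : ∀ g : F, g ∈ I.G → σ.symm g ∈ I.G)
    (hker : ∀ g : ↥I.G, I.red g ≠ 0 → I.red ⟨σ (g : F), hG g g.2⟩ ≠ 0)
    (hker' : ∀ g : ↥I.G, I.red g ≠ 0 → I.red ⟨σ.symm (g : F), hG' g g.2⟩ ≠ 0) :
    Stab I.gaussV σ := by
  refine Stab.of_forall ?_ ?_
  · rintro f ⟨a, b, hb, hab⟩
    refine ⟨⟨σ (a : F), hG a a.2⟩, ⟨σ (b : F), hG b b.2⟩, hker b hb, ?_⟩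
    show σ f * σ (b : F) = σ (a : F)
    rw [← map_mul, hab]
  · rintro f ⟨a, b, hb, hab⟩
    refine ⟨⟨σ.symm (a : F), hG' a a.2⟩, ⟨σ.symm (b : F), hG' b b.2⟩, hker' b hb, ?_⟩
    show σ.symm f * σ.symm (b : F) = σ.symm (a : F)
    rw [← map_mul, hab]

end IntRed

/-! ### From a chart -/

section Chart

variable {L : Type*} [Field L] [IsAlgClosed L] {A : ValuationSubring L}
variable {F : Type*} [Field F] [Algebra L F] {x : F} {hx : Fermat.Agent.X0.FF.IsGen L x}
variable {Ft : Type*} [Field Ft] [Algebra (kA A) Ft]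

/-- **The integral ring with reduction of a chart.** -/
def IntRed.ofChart (S : ChartSpec A hx Ft) : IntRed A F Ft where
  G := S.B
  red := S.red
  const_mem := S.const_mem
  red_const := S.red_const
  exists_rep := by
    intro f hf
    obtain ⟨a, b, hb, hab⟩ := S.frac f
    have ha : a ≠ 0 := by
      rintro rfl
      have hb0 : (b : F) ≠ 0 := fun h => hb (Subtype.ext h)
      rw [Subring.coe_zero, mul_eq_zero] at hab
      rcases hab with h | h
      · exact hf h
      · exact hb0 h
    obtain ⟨ca, a', hca, ha'⟩ := S.sat a ha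
    obtain ⟨cb, b', hcb, hb'⟩ := S.sat b hb
    have hcb0 : (cb : L) ≠ 0 := by
      intro h
      apply hb
      apply Subtype.ext
      rw [hcb, h, map_zero, zero_mul]
      rfl
    have hca0 : (ca : L) ≠ 0 := by
      intro h
      apply ha
      apply Subtype.ext
      rw [hca, h, map_zero, zero_mul]
      rfl
    refine ⟨(ca : L) / (cb : L), a', b', div_ne_zero hca0 hcb0, ha', hb', ?_⟩
    have hcbF : algebraMap L F (cb : L) ≠ 0 := by
      rw [Ne, map_eq_zero_iff _ (algebraMap L F).injective]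
      exact hcb0
    rw [hca, hcb] at hab
    rw [map_div₀]
    field_simp
    linear_combination hab

@[simp] theorem IntRed.ofChart_G (S : ChartSpec A hx Ft) : (IntRed.ofChart S).G = S.B := rfl

@[simp] theorem IntRed.ofChart_red (S : ChartSpec A hx Ft) : (IntRed.ofChart S).red = S.red := rfl

end Chart

end Fermat.Agent.DS.G.RED.DiaRedChart
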