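/-
DS programme (S48), GEO half, chapter G-RED (helper28), brick R7: the REDUCTION fields
(`r`, `red`, `hred`, `inj`) of `DS/G/Top/TorsionGaloisQ.LocalInputs` for a generator datum.

* `redHom_reductionPic0AlongG` : `TorsionGalois.RedHom r (reductionPic0AlongG r hr hgen)` (the
  field `hred`), for an arbitrary pair `(F₀, Ft)`;
* `inj_of_gb2` : the field `inj` (= (Φ3)) for `red := reductionPic0AlongG r hr hgen`, from
  `IsGen` + MODEL + (GB2), in the binder order of `LocalInputs.inj`;
* `inj_of_clBar` : the same from `(CL)` over `ℚ̄` and an arbitrary `hgen`.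
-/
import Mathlib
import Fermat.Agent.DS.G.RED.Rgen
import Fermat.Agent.DS.G.Top.TorsionGaloisQ

set_option autoImplicit false

open HahnSeries IntermediateField AlgebraicCurve ModularCurve

noncomputable section

namespace Fermat.Agent.DS.G.RED.LocalRed

open Fermat.Agent.X0 Fermat.Agent.RED.Interface4
open Fermat.Agent.DS.G.RED.Defs Fermat.Agent.DS.G.RED.Iface Fermat.Agent.DS.G.RED.Num
open Fermat.Agent.DS.G.ES.RED.Iface Fermat.Agent.DS.G.ES.RED.GaussUnit25
open Fermat.Agent.DS.G.Top.TorsionGalois Fermat.Agent.DS.G.Top.TorsionGaloisQ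

section Pair

variable {L : Type*} [Field L] [Algebra ℚ L] {A : ValuationSubring L}
variable {k : Type*} [Field k] {π : A →+* k}
variable {F₀ : IntermediateField ℚ (LaurentSeries ℚ)} {Ft : IntermediateField k (LaurentSeries k)}

/-- **the field `hred`**: `reductionPic0AlongG` is induced by `r` on divisors. -/
theorem redHom_reductionPic0AlongG
    (r : Place L (laurentBaseChange L F₀) → Place k Ft)
    (hr : IsPlaceReductionAlongG A π F₀ Ft r) (hgen : PrincipalGeneratedByIntegralG A π F₀ Ft) :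
    RedHom r (reductionPic0AlongG r hr hgen) := fun D =>
  ⟨(reductionDegZeroAlongG r hr.deg_eq D).2, reductionPic0AlongG_mk r hr hgen D⟩

end Pair

section GenData

variable (D : GenData) (A : ValuationSubring Qbar)

/-- **the field `inj`** from `(CL)` over `ℚ̄`. -/
theorem inj_of_clBar {ℓ : ℕ} [Fact ℓ.Prime] {x : FbarG D.FQ} (hx : FF.IsGen Qbar x)
    (hCL : CLBarG D.FQ ℓ A)
    (r : Place Qbar (FbarG D.FQ) →
      Place (IsLocalRing.ResidueField A) (D.FC (IsLocalRing.ResidueField A)))
    (hr : IsPlaceReductionAlongG A (IsLocalRing.residue A) D.FQ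
      (D.FC (IsLocalRing.ResidueField A)) r)
    (hgen : PrincipalGeneratedByIntegralG A (IsLocalRing.residue A) D.FQ
      (D.FC (IsLocalRing.ResidueField A))) :
    ∀ (m : ℕ) (z : JF D.FQ), ¬ ℓ ∣ m → m • z = 0 →
      reductionPic0AlongG r hr hgen z = 0 → z = 0 :=
  fun m z hm hmz hz =>
    Fermat.Agent.DS.G.RED.Phi3.phi3_of_clBar D hx A hCL r hr hgen m hm z hmz hz

/-- **the field `inj`** from `IsGen` + MODEL + (GB2). -/
theorem inj_of_gb2 {ℓ : ℕ} [Fact ℓ.Prime] {x : FbarG D.FQ} (hx : FF.IsGen Qbar x)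
    (hA : A.LiesOverPrime ℓ) (hModel : ModelStepG D.FQ A) (hGB2 : GB2Step D A)
    (r : Place Qbar (FbarG D.FQ) →
      Place (IsLocalRing.ResidueField A) (D.FC (IsLocalRing.ResidueField A)))
    (hr : IsPlaceReductionAlongG A (IsLocalRing.residue A) D.FQ
      (D.FC (IsLocalRing.ResidueField A)) r) :
    ∀ (m : ℕ) (z : JF D.FQ), ¬ ℓ ∣ m → m • z = 0 →
      reductionPic0AlongG r hr
        (Fermat.Agent.DS.G.RED.Rgen.principalGeneratedByIntegralG_of_isGen D A ℓ hA hx hGB2) z = 0 →
      z = 0 :=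
  fun m z hm hmz hz =>
    Fermat.Agent.DS.G.RED.Rgen.phi3_of_gb2 D A hx hA hModel hGB2 r hr m hm z hmz hz

end GenData

end Fermat.Agent.DS.G.RED.LocalRed

end
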