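/-
Programme DS (S48), chapter G-RED: **(MODEL) at the level `L1 M = X₁(M)/±`, UNCONDITIONAL**
(helper19; chain A of the last mile).

  `modelStep_L1 : ModelMain4.ModelStep (L1 M).F₀ A`   for `4 ∣ M` or `9 ∣ M`, `p ∤ M`, `A | p`:

two-chart smooth models of `K·F₀(L1 M)` over `A ∩ K` for all large number fields `K`.

Assembly of helper29's `CUSP/Hfam29.modelStep_of_level'` (generic level: BASE + PUR + CUSP + MODEL
twins of helper89/helper29/helper77/helper80/helper99/helper28) at the instance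
`(L1 M, realizeDataK1 M, cuspDataK1 M)` of helper13's `DS/X1/Inst13`, with
* the cusp expansions of the Hauptmodul (helper16/helper13 `BASE/CuspExpLevel11`),
* `GaussInputs (L1 M).F₀ A` (helper55 `GaussInputsX1.gaussInputs_X1gens`),
* the rationality and integrality of the compressed cusp expansions of the generators
  (helper29 `DS/X1/CuspInt29`, `CuspExpKInst29`).
-/
import Fermat.Agent.DS.G.RED.CUSP.Hfam29
import Fermat.Agent.DS.G.RED.BASE.CuspExpLevel11
import Fermat.Agent.DS.G.ES.RED.GaussInputsX1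
import Fermat.Agent.DS.X1.CuspExpKInst29
import Fermat.Agent.DS.X1.CuspExp1

set_option autoImplicit false
set_option linter.unusedSectionVars false

open ModularCurve IntermediateField
open scoped MatrixGroups

noncomputable section

namespace Fermat.Agent.DS.G.RED.ModelStepL1

open Fermat.Agent.X0 (Kbar)
open Fermat.Agent.RED.Interface4 (Qbar)
open Fermat.Agent.RED.BASE.Hauptmodul12 (BaseHyp baseHyp_four baseHyp_nine)
open Fermat.Agent.RED.BASE.CuspExpMain11 (cvT)
open Fermat.Agent.RED.BASE.Interface12 (CuspSeparated)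
open Fermat.Agent.DS.G.Level Fermat.Agent.DS.X1.Level1 Fermat.Agent.DS.X1.Inst13
open Fermat.Agent.DS.X1.CuspInt29 Fermat.Agent.DS.X1.CuspExpKInst29
open Fermat.Agent.DS.G.RED.BASE.Interface12
open Fermat.Agent.DS.G.RED.ModelMain4
open Fermat.Agent.DS.G.RED.CUSP

variable (M : ℕ) [NeZero M]

/-- `F_n ≤ F₀(L1 M)` for `n ∣ M`. -/
theorem full_le_L1_of_dvd' {n : ℕ} [NeZero n] (hnM : n ∣ M) :
    modularFunctionFieldFull n ≤ (L1 M).F₀ :=
  le_trans (ModularCurve.full_degeneracy_le hnM) (Fermat.Agent.DS.X1.CuspExp1.full_le_L1 M)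

/-- (B5) + (B4) for `t₄` at `L1 M` with the cusp data of `Inst13`. -/
theorem cuspExpK_four (hM : 4 ∣ M) :
    CuspExp 4 8 (L1 M) (cuspDataK1 M) (cvT 4 8 M) ∧ CuspSeparated 4 (cvT 4 8 M) :=
  Fermat.Agent.DS.G.RED.BASE.CuspExpLevel11.cuspExp_four (L1 M) (realizeDataK1 M) (cuspDataK1 M) M
    (Fermat.Agent.DS.X1.CuspExp1.full_le_L1 M) 1 (Fermat.Agent.DS.X1.CuspExp1.L1_w_eq M) hM

/-- (B5) + (B4) for `t₉` at `L1 M` with the cusp data of `Inst13`. -/
theorem cuspExpK_nine (hM : 9 ∣ M) :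
    CuspExp 9 3 (L1 M) (cuspDataK1 M) (cvT 9 3 M) ∧ CuspSeparated 9 (cvT 9 3 M) :=
  Fermat.Agent.DS.G.RED.BASE.CuspExpLevel11.cuspExp_nine (L1 M) (realizeDataK1 M) (cuspDataK1 M) M
    (Fermat.Agent.DS.X1.CuspExp1.full_le_L1 M) 1 (Fermat.Agent.DS.X1.CuspExp1.L1_w_eq M) hM

/-- Rationality of the compressed cusp expansions of the generators over every number field
containing `ζ_M`. -/
theorem hKrat_L1 :
    ∃ K₀ : IntermediateField ℚ Qbar, FiniteDimensional ℚ K₀ ∧
      ∀ K : IntermediateField ℚ Qbar, FiniteDimensional ℚ K → K₀ ≤ K →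
        ∀ (γ : SL(2, ℤ)) (g : (L1 M).gensQ) (m : ℤ),
          (CuspExact16.Tc (cuspDataK1 M) γ (genc (L1 M) Qbar g)).coeff m ∈ K := by
  obtain ⟨K₀, hK₀, hζ⟩ := exists_numberField_zeta M
  refine ⟨K₀, hK₀, fun K _ hle γ g m => ?_⟩
  exact S1_le_of_mem M K.toSubfield (hle hζ) (Tc_genc_coeff_mem M γ g m)

/-- Integrality of the compressed cusp expansions of the generators at a place over `p ∤ M`. -/
theorem hInt_L1 {p : ℕ} (hp : p.Prime) (hpM : ¬ p ∣ M) (A : ValuationSubring Qbar)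
    (hA : A.LiesOverPrime p) (γ : SL(2, ℤ)) (g : (L1 M).gensQ) (m : ℤ) :
    (CuspExact16.Tc (cuspDataK1 M) γ (genc (L1 M) Qbar g)).coeff m ∈ A :=
  S1_le_valuationSubring M A (Fermat.Agent.RED.NumInst4.inv_natCast_mem hp hA M hpM)
    (Tc_genc_coeff_mem M γ g m)

variable {p : ℕ} [Fact p.Prime] (A : ValuationSubring Qbar)

/-- (MODEL) at `L1 M` for a general base Hauptmodul. -/
theorem modelStep_of_base {n e : ℕ} [NeZero n] (hb : BaseHyp n e) (hnM : n ∣ M)
    (hcv : CuspExp n e (L1 M) (cuspDataK1 M) (cvT n e M) ∧ CuspSeparated n (cvT n e M))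
    (hpM : ¬ p ∣ M) (hA : A.LiesOverPrime p) : ModelStep (L1 M).F₀ A :=
  Hfam29.modelStep_of_level' hb (L1 M) (realizeDataK1 M) (cuspDataK1 M) (cuspDataK1_distinct M)
    (full_le_L1_of_dvd' M hnM) (cvT n e M) hcv (fun h => hpM (dvd_trans h hnM)) hpM hA
    (Fermat.Agent.DS.G.ES.RED.GaussInputsX1.gaussInputs_X1gens M p hpM A hA)
    (hKrat_L1 M) (hInt_L1 M Fact.out hpM A hA)

/-- **(MODEL) at the level `L1 M`, unconditional**: `4 ∣ M` or `9 ∣ M`, `p ∤ M`, `A` over `p`. -/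
theorem modelStep_L1 (hM : 4 ∣ M ∨ 9 ∣ M) (hpM : ¬ p ∣ M) (hA : A.LiesOverPrime p) :
    ModelStep (L1 M).F₀ A := by
  rcases hM with hM | hM
  · exact modelStep_of_base M A baseHyp_four hM (cuspExpK_four M hM) hpM hA
  · exact modelStep_of_base M A baseHyp_nine hM (cuspExpK_nine M hM) hpM hA

end Fermat.Agent.DS.G.RED.ModelStepL1
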