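/-
Programme DS (S48), chapter G-RED (helper19, assigned by helper71 msg 6825 (1)):
**the three smoothness targets at the level `L1 M = X₁(M)/±`, UNCONDITIONAL**, for the two base
pairs `(n, e) = (4, 8)` (`4 ∣ M`) and `(9, 3)` (`9 ∣ M`):

  `targets_L1_four`, `targets_L1_nine` :
     `OffTarget (L1 M).F₀ n e A (cvT n e M) ∧ OverTarget (L1 M).F₀ n e A (cvT n e M) ∧
      InfTarget (L1 M).F₀ n e A`        (`p ∤ M`, `A` over `p`).

`OffTarget` : `PUR/OffTarget.offTarget_of_gaussInputs` (as in `ModelL1`); `OverTarget`, `InfTarget` :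
`CuspL1.overTarget_L1 / infTarget_L1` with the cusp families `Hfam29.hfamS / hfamN` (helper29) at
`(L1 M, realizeDataK1 M, cuspDataK1 M)`; `GaussInputs` : helper55's `gaussInputs_X1gens`.
Consumer: helper52's `ModelOf52.model_of_targets'` (chain B).
-/
import Fermat.Agent.DS.G.RED.CuspL1
import Fermat.Agent.DS.G.RED.ModelStepL1

set_option autoImplicit false
set_option linter.unusedSectionVars false

open ModularCurve IntermediateField
open scoped MatrixGroups

noncomputable section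

namespace Fermat.Agent.DS.G.RED.TargetsL1

open Fermat.Agent.X0 (Kbar)
open Fermat.Agent.RED.Interface4 (Qbar)
open Fermat.Agent.RED.BASE.Hauptmodul12 (BaseHyp baseHyp_four baseHyp_nine tGenBase')
open Fermat.Agent.RED.BASE.CuspExpMain11 (cvT)
open Fermat.Agent.RED.BASE.Interface12 (CuspSeparated)
open Fermat.Agent.DS.G.Level Fermat.Agent.DS.X1.Level1 Fermat.Agent.DS.X1.Model1
open Fermat.Agent.DS.X1.Inst13 (realizeDataK1 cuspDataK1 cuspDataK1_distinct)
open Fermat.Agent.DS.X1.CuspExp1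
open Fermat.Agent.DS.G.RED.BASE.Interface12
open Fermat.Agent.DS.G.RED.ModelTargets4 Fermat.Agent.DS.G.RED.ModelMain4
open Fermat.Agent.DS.G.RED.ModelL1 Fermat.Agent.DS.G.RED.CuspL1 Fermat.Agent.DS.G.RED.ModelStepL1
open Fermat.Agent.DS.G.RED.CUSP

variable (M : ℕ) [NeZero M] {p : ℕ} [Fact p.Prime] (A : ValuationSubring Qbar)

section General

variable {n e : ℕ} [NeZero n]

/-- The cusp families over the finite cusp values at `L1 M` (helper29's `Hfam29.hfamS`). -/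
theorem famOver_L1 (hb : BaseHyp n e) (hnM : n ∣ M)
    (hcv : CuspExp n e (L1 M) (cuspDataK1 M) (cvT n e M) ∧ CuspSeparated n (cvT n e M))
    (hpM : ¬ p ∣ M) (hA : A.LiesOverPrime p) : FamOver M A n e :=
  Hfam29.hfamS hb (L1 M) (realizeDataK1 M) (cuspDataK1 M) (cuspDataK1_distinct M)
    (full_le_L1_of_dvd' M hnM) (cvT n e M) hcv hA hpM (fun h => hpM (dvd_trans h hnM))
    (hKrat_L1 M) (hInt_L1 M Fact.out hpM A hA)

/-- The cusp family over the poles of `t` at `L1 M` (helper29's `Hfam29.hfamN`). -/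
theorem famInf_L1 (hb : BaseHyp n e) (hnM : n ∣ M)
    (hcv : CuspExp n e (L1 M) (cuspDataK1 M) (cvT n e M) ∧ CuspSeparated n (cvT n e M))
    (hpM : ¬ p ∣ M) (hA : A.LiesOverPrime p) : FamInf M A n e :=
  Hfam29.hfamN hb (L1 M) (realizeDataK1 M) (cuspDataK1 M) (cuspDataK1_distinct M)
    (full_le_L1_of_dvd' M hnM) (cvT n e M) hcv hA hpM (fun h => hpM (dvd_trans h hnM))
    (hKrat_L1 M) (hInt_L1 M Fact.out hpM A hA)

/-- `OffTarget` at `L1 M`. -/
theorem offTarget_L1 (hb : BaseHyp n e) (hnM : n ∣ M) (hpM : ¬ p ∣ M) (hA : A.LiesOverPrime p)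
    (hC : CuspExp n e (L1 M) (C1 M) (cvT n e M)) : OffTarget (L1 M).F₀ n e A (cvT n e M) :=
  Fermat.Agent.DS.G.PUR.OffTarget.offTarget_of_gaussInputs (placeInputs1 M) (cvT n e M)
    (tIsGen_L1 M (tq_mem_L1 M hb hnM)) (unbranched_L1 M hb hnM) hC
    (fun h => hpM (dvd_trans h hnM)) hA (gaussInputs_L1 M A hpM hA)
    (tTarget (tq_mem_L1 M hb hnM)) (Fermat.Agent.RED.ModelFinal4.jTarget (tGenBase' hb))

/-- **The three targets at `L1 M`**, general base pair. -/
theorem targets_L1 (hb : BaseHyp n e) (hnM : n ∣ M) (hpM : ¬ p ∣ M) (hA : A.LiesOverPrime p)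
    (hC : CuspExp n e (L1 M) (C1 M) (cvT n e M) ∧ CuspSeparated n (cvT n e M))
    (hcv : CuspExp n e (L1 M) (cuspDataK1 M) (cvT n e M) ∧ CuspSeparated n (cvT n e M)) :
    OffTarget (L1 M).F₀ n e A (cvT n e M) ∧ OverTarget (L1 M).F₀ n e A (cvT n e M) ∧
      InfTarget (L1 M).F₀ n e A :=
  ⟨offTarget_L1 M A hb hnM hpM hA hC.1,
    overTarget_L1 M A hb hnM hpM hA hC.1 hC.2 (famOver_L1 M A hb hnM hcv hpM hA),
    infTarget_L1 M A hb hnM hpM hA hC.1 (famInf_L1 M A hb hnM hcv hpM hA)⟩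

end General

/-- **The three targets at `L1 M`, `4 ∣ M`, base pair `(4, 8)`** — unconditional. -/
theorem targets_L1_four (hM : 4 ∣ M) (hpM : ¬ p ∣ M) (hA : A.LiesOverPrime p) :
    OffTarget (L1 M).F₀ 4 8 A (cvT 4 8 M) ∧ OverTarget (L1 M).F₀ 4 8 A (cvT 4 8 M) ∧
      InfTarget (L1 M).F₀ 4 8 A :=
  targets_L1 M A baseHyp_four hM hpM hA (cuspExp_four1 M hM) (cuspExpK_four M hM)

/-- **The three targets at `L1 M`, `9 ∣ M`, base pair `(9, 3)`** — unconditional. -/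
theorem targets_L1_nine (hM : 9 ∣ M) (hpM : ¬ p ∣ M) (hA : A.LiesOverPrime p) :
    OffTarget (L1 M).F₀ 9 3 A (cvT 9 3 M) ∧ OverTarget (L1 M).F₀ 9 3 A (cvT 9 3 M) ∧
      InfTarget (L1 M).F₀ 9 3 A :=
  targets_L1 M A baseHyp_nine hM hpM hA (cuspExp_nine1 M hM) (cuspExpK_nine M hM)

end Fermat.Agent.DS.G.RED.TargetsL1
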